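import Fermat.Agent.S20_helper90.Germ

set_option autoImplicit false

/-!
Permutation form of the local determinant lemma: the symmetry permutes the columns,
`Φ a x (sig z) = u z * Φ a (π x) z`.  For `e` prime the forced order is expressed through the
number of fixed points of `π`.
-/

namespace Fermat.Agent.S20_helper90

open Matrix Finset Filter Topology

section perm

variable {X : Type*} [Fintype X] [DecidableEq X]

/-- The permutation matrix with `(M * permMat π) a x = M a (π x)`. -/
def permMat (π : Equiv.Perm X) : Matrix X X ℂ := Matrix.of fun y x => if y = π x then 1 else 0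

omit [Fintype X] in
theorem permMat_apply (π : Equiv.Perm X) (y x : X) :
    permMat π y x = if y = π x then 1 else 0 := rfl

theorem mul_permMat (M : Matrix X X ℂ) (π : Equiv.Perm X) (a x : X) :
    (M * permMat π) a x = M a (π x) := by
  rw [Matrix.mul_apply]
  simp only [permMat_apply, mul_ite, mul_one, mul_zero]
  rw [Finset.sum_ite_eq' Finset.univ (π x) (fun y => M a y)]
  simp

omit [Fintype X] in
theorem permMat_one : permMat (1 : Equiv.Perm X) = 1 := by
  ext y x
  by_cases h : y = x <;> simp [permMat_apply, Matrix.one_apply, h]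

theorem permMat_mul (π σ : Equiv.Perm X) : permMat π * permMat σ = permMat (π * σ) := by
  ext y x
  rw [mul_permMat, permMat_apply, permMat_apply, Equiv.Perm.mul_apply]

theorem permMat_pow (π : Equiv.Perm X) (j : ℕ) : permMat π ^ j = permMat (π ^ j) := by
  induction j with
  | zero => rw [pow_zero, pow_zero, permMat_one]
  | succ j ih => rw [pow_succ, pow_succ, ih, permMat_mul]

theorem trace_permMat (π : Equiv.Perm X) :
    trace (permMat π) = (Nat.card {x : X // π x = x} : ℂ) := by
  rw [Matrix.trace]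
  simp only [Matrix.diag_apply, permMat_apply]
  rw [Finset.sum_boole, Nat.card_eq_fintype_card, Fintype.card_subtype]
  congr 2
  ext x
  simp [eq_comm]

omit [Fintype X] [DecidableEq X] in
/-- For a permutation of prime order dividing `e`, the powers `π ^ j`, `0 < j < e`, have the same
fixed points as `π`. -/
theorem pow_apply_eq_iff_of_prime {e : ℕ} (he : e.Prime) (π : Equiv.Perm X) (hπ : π ^ e = 1)
    {j : ℕ} (hj0 : 0 < j) (hj : j < e) (x : X) : (π ^ j) x = x ↔ π x = x := by
  constructor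
  · intro h
    have hcop : Nat.Coprime j e := by
      rw [Nat.coprime_comm]
      exact (Nat.Prime.coprime_iff_not_dvd he).mpr (Nat.not_dvd_of_pos_of_lt hj0 hj)
    obtain ⟨a, -, ha⟩ := Nat.exists_mul_mod_eq_one_of_coprime hcop he.one_lt
    have h1 : π ^ (j * a) = π := by
      rw [pow_eq_pow_mod (j * a) hπ, ha, pow_one]
    have h2 : (π ^ (j * a)) x = x := by
      rw [pow_mul]
      exact Equiv.Perm.pow_apply_eq_self_of_apply_eq_self h a
    rwa [h1] at h2
  · intro h
    exact Equiv.Perm.pow_apply_eq_self_of_apply_eq_self h j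

theorem trace_permMat_pow_of_prime {e : ℕ} (he : e.Prime) (π : Equiv.Perm X) (hπ : π ^ e = 1)
    {j : ℕ} (hj0 : 0 < j) (hj : j < e) :
    trace (permMat π ^ j) = (Nat.card {x : X // π x = x} : ℂ) := by
  rw [permMat_pow, trace_permMat]
  congr 1
  exact Nat.card_congr (Equiv.subtypeEquivRight fun x => pow_apply_eq_iff_of_prime he π hπ hj0 hj x)

omit [DecidableEq X] in
theorem card_fixed_le (π : Equiv.Perm X) : Nat.card {x : X // π x = x} ≤ Fintype.card X := by
  rw [← Nat.card_eq_fintype_card]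
  exact Finite.card_subtype_le _

/-- The multiplicities of the eigenvalues of a permutation matrix of prime order `e`. -/
theorem specMult_of_prime {e : ℕ} (he : e.Prime) {ζ : ℂ} (hζ : IsPrimitiveRoot ζ e)
    (π : Equiv.Perm X) (hπ : π ^ e = 1) (m : ℕ → ℕ)
    (hm : ∀ l < e, (m l : ℂ) = trace (specProj e ζ (permMat π) l)) :
    m 0 * e = Fintype.card X + (e - 1) * Nat.card {x : X // π x = x} ∧
      ∀ l, 0 < l → l < e → m l * e + Nat.card {x : X // π x = x} = Fintype.card X := by
  have he0 : e ≠ 0 := he.ne_zero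
  have heK : (e : ℂ) ≠ 0 := Nat.cast_ne_zero.mpr he0
  set f := Nat.card {x : X // π x = x} with hf
  obtain ⟨e', rfl⟩ : ∃ e', e = e' + 1 := ⟨e - 1, (Nat.succ_pred_eq_of_pos he.pos).symm⟩
  -- the basic identity
  have hbasic : ∀ l < e' + 1, (m l : ℂ) * ((e' + 1 : ℕ) : ℂ) =
      (f : ℂ) * ∑ j ∈ range e', ((ζ⁻¹) ^ l) ^ (j + 1) + (Fintype.card X : ℂ) := by
    intro l hl
    rw [hm l hl, trace_specProj, mul_comm, ← mul_assoc, mul_inv_cancel₀ heK, one_mul,
      Finset.sum_range_succ', Finset.mul_sum]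
    congr 1
    · refine Finset.sum_congr rfl fun j hj => ?_
      rw [trace_permMat_pow_of_prime he π hπ (Nat.succ_pos j)
        (Nat.succ_lt_succ (Finset.mem_range.mp hj)), pow_mul, mul_comm]
    · simp [Matrix.trace_one]
  constructor
  · have h := hbasic 0 (Nat.succ_pos e')
    simp only [pow_zero, one_pow, Finset.sum_const, Finset.card_range, nsmul_eq_mul, mul_one]
      at h
    have h' : ((m 0 * (e' + 1) : ℕ) : ℂ) = ((Fintype.card X + (e' + 1 - 1) * f : ℕ) : ℂ) := by
      push_cast
      push_cast at h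
      linear_combination h
    exact Nat.cast_injective h'
  · intro l hl0 hl
    have h := hbasic l hl
    have hx1 : (ζ⁻¹) ^ l ≠ 1 :=
      (IsPrimitiveRoot.inv_iff.mpr hζ).pow_ne_one_of_pos_of_lt (Nat.pos_iff_ne_zero.mp hl0) hl
    have hxe : ((ζ⁻¹) ^ l) ^ (e' + 1) = 1 := by
      rw [← pow_mul, mul_comm, pow_mul, inv_pow, hζ.pow_eq_one, inv_one, one_pow]
    have hsum := sum_pow_eq_zero_of_ne_one hxe hx1
    rw [Finset.sum_range_succ', pow_zero] at hsum
    have hsum' : ∑ j ∈ range e', ((ζ⁻¹) ^ l) ^ (j + 1) = -1 := by linear_combination hsum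
    rw [hsum'] at h
    have h' : ((m l * (e' + 1) + f : ℕ) : ℂ) = ((Fintype.card X : ℕ) : ℂ) := by
      push_cast
      push_cast at h
      linear_combination h
    exact Nat.cast_injective h'

end perm

/-! ### The forced order -/

/-- Cyclic shift of a sum over `range e`. -/
theorem sum_range_add_mod (g : ℕ → ℕ) (e : ℕ) (s : ℕ) :
    ∑ l ∈ range e, g ((s + l) % e) = ∑ l ∈ range e, g l := by
  induction s with
  | zero =>
    refine Finset.sum_congr rfl fun l hl => ?_
    rw [zero_add, Nat.mod_eq_of_lt (Finset.mem_range.mp hl)]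
  | succ s ih =>
    rw [← ih]
    have h1 := Finset.sum_range_succ' (fun a => g ((s + a) % e)) e
    have h2 := Finset.sum_range_succ (fun a => g ((s + a) % e)) e
    rw [h1] at h2
    simp only [add_zero, Nat.add_mod_right] at h2
    have h3 : ∑ l ∈ range e, g ((s + 1 + l) % e) = ∑ k ∈ range e, g ((s + (k + 1)) % e) := by
      refine Finset.sum_congr rfl fun l _ => ?_
      congr 2
      ring
    rw [h3]
    exact Nat.add_right_cancel h2

/-- Forced vanishing order for a symmetry of prime order `e`: `μ` = size of the index set,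
`f` = number of fixed points of the permutation, `s` = exponent of the multiplier. -/
def forcedOrd (e s μ f : ℕ) : ℕ := (e * (e - 1) / 2) * ((μ - f) / e) + (s % e) * f

theorem forcedOrd_two (s μ f : ℕ) : forcedOrd 2 s μ f = (μ - f) / 2 + (s % 2) * f := by
  unfold forcedOrd; simp

theorem forcedOrd_three (s μ f : ℕ) (h : 3 ∣ μ - f) :
    forcedOrd 3 s μ f = (μ - f) + (s % 3) * f := by
  unfold forcedOrd
  obtain ⟨t, ht⟩ := h
  rw [ht]
  simp

theorem sum_rotExp_mul {e : ℕ} (he : 0 < e) (s t f : ℕ) (m : ℕ → ℕ) (hm0 : m 0 = t + f)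
    (hml : ∀ l, 0 < l → l < e → m l = t) :
    ∑ l ∈ range e, rotExp e s l * m l = (e * (e - 1) / 2) * t + (s % e) * f := by
  have h1 : ∀ l ∈ range e, rotExp e s l * m l =
      rotExp e s l * t + (if l = 0 then rotExp e s 0 * f else 0) := by
    intro l hl
    by_cases h0 : l = 0
    · subst h0
      rw [if_pos rfl, hm0, mul_add]
    · rw [if_neg h0, add_zero, hml l (Nat.pos_of_ne_zero h0) (Finset.mem_range.mp hl)]
  rw [Finset.sum_congr rfl h1, Finset.sum_add_distrib, ← Finset.sum_mul,
    Finset.sum_ite_eq' (range e) 0 (fun _ => rotExp e s 0 * f), if_pos (Finset.mem_range.mpr he)]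
  have h2 : ∑ l ∈ range e, rotExp e s l = e * (e - 1) / 2 := by
    unfold rotExp
    rw [sum_range_add_mod (fun l => l) e s, Finset.sum_range_id]
  rw [h2]
  unfold rotExp
  rw [add_zero]

section main

variable {X : Type*} [Fintype X] [DecidableEq X]

/-- The forced order in terms of fixed points, for prime `e`. -/
theorem sum_rotExp_mul_specMult {e : ℕ} (he : e.Prime) {ζ : ℂ} (hζ : IsPrimitiveRoot ζ e)
    (s : ℕ) (π : Equiv.Perm X) (hπ : π ^ e = 1) (m : ℕ → ℕ)
    (hm : ∀ l < e, (m l : ℂ) = trace (specProj e ζ (permMat π) l)) :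
    ∑ l ∈ range e, rotExp e s l * m l =
      forcedOrd e s (Fintype.card X) (Nat.card {x : X // π x = x}) := by
  obtain ⟨h0, hl⟩ := specMult_of_prime he hζ π hπ m hm
  set f := Nat.card {x : X // π x = x} with hf
  set μ := Fintype.card X with hμ
  have hfμ : f ≤ μ := card_fixed_le π
  have hepos : 0 < e := he.pos
  -- t := m 1
  have h1 : m 1 * e + f = μ := hl 1 Nat.one_pos he.one_lt
  have ht : (μ - f) / e = m 1 := by
    have : μ - f = m 1 * e := by omega
    rw [this, Nat.mul_div_cancel _ hepos]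
  unfold forcedOrd
  rw [ht]
  refine sum_rotExp_mul hepos s (m 1) f m ?_ ?_
  · have h2 : m 0 * e = (m 1 + f) * e := by
      rw [h0, add_mul, ← h1]
      have : e - 1 + 1 = e := Nat.succ_pred_eq_of_pos hepos
      calc m 1 * e + f + (e - 1) * f = m 1 * e + ((e - 1) + 1) * f := by ring
        _ = m 1 * e + f * e := by rw [this, mul_comm e f]
    exact Nat.eq_of_mul_eq_mul_right hepos h2
  · intro l hl0 hle
    have h2 := hl l hl0 hle
    have h3 : m l * e = m 1 * e := by omega
    exact Nat.eq_of_mul_eq_mul_right hepos h3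

variable {e : ℕ} {ζ : ℂ} {z0 : ℂ} {sig u : ℂ → ℂ} {Φ : X → X → ℂ → ℂ}

omit [DecidableEq X] in
theorem eventually_matrix_symm (π : Equiv.Perm X)
    (hsym : ∀ a x, ∀ᶠ z in 𝓝 z0, Φ a x (sig z) = u z * Φ a (π x) z) :
    ∀ᶠ z in 𝓝 z0, ∀ a x, Φ a x (sig z) = u z * Φ a (π x) z := by
  rw [Filter.eventually_all]; intro a
  rw [Filter.eventually_all]; intro x
  exact hsym a x

/-- **(L1), permutation germ form, prime `e`**: the order at `z0` of `det (Φ a x z)` is at least
`forcedOrd e s μ f`, `μ = card X`, `f = #Fix π`. -/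
theorem germ_le_analyticOrderAt_det (he : e.Prime) (hζ : IsPrimitiveRoot ζ e) (s : ℕ)
    (π : Equiv.Perm X) (hπ : π ^ e = 1)
    (hsig : AnalyticAt ℂ sig z0) (hsig0 : sig z0 = z0) (hsig1 : deriv sig z0 = ζ)
    (hu : AnalyticAt ℂ u z0) (hu0 : u z0 = ζ ^ s)
    (hΦ : ∀ a x, AnalyticAt ℂ (Φ a x) z0)
    (hsym : ∀ a x, ∀ᶠ z in 𝓝 z0, Φ a x (sig z) = u z * Φ a (π x) z) :
    ((forcedOrd e s (Fintype.card X) (Nat.card {x : X // π x = x}) : ℕ) : ℕ∞) ≤
      analyticOrderAt (fun z => Matrix.det (Matrix.of fun a x => Φ a x z)) z0 := by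
  have he0 : e ≠ 0 := he.ne_zero
  have hP : permMat π ^ e = 1 := by rw [permMat_pow, hπ, permMat_one]
  obtain ⟨m, hm⟩ := exists_specMult (P := permMat π) he0 hζ hP
  rw [← sum_rotExp_mul_specMult he hζ s π hπ m hm]
  refine germ_le_analyticOrderAt_det_gen (Φ := fun z => Matrix.of fun a x => Φ a x z)
    he0 hζ hP hsig hsig0 hsig1 hu hu0 (fun a x => hΦ a x) ?_ m hm
  filter_upwards [eventually_matrix_symm π hsym] with z hz
  ext a x
  rw [Matrix.smul_apply, mul_permMat, Matrix.of_apply, Matrix.of_apply, smul_eq_mul]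
  exact hz a x

/-- **(L2), permutation germ form, prime `e`** (saturation alternative). -/
theorem germ_exists_vanishing_combination (he : e.Prime) (hζ : IsPrimitiveRoot ζ e) (s : ℕ)
    (π : Equiv.Perm X) (hπ : π ^ e = 1)
    (hsig : AnalyticAt ℂ sig z0) (hsig0 : sig z0 = z0) (hsig1 : deriv sig z0 = ζ)
    (hu : AnalyticAt ℂ u z0) (hu0 : u z0 = ζ ^ s)
    (hΦ : ∀ a x, AnalyticAt ℂ (Φ a x) z0)
    (hsym : ∀ a x, ∀ᶠ z in 𝓝 z0, Φ a x (sig z) = u z * Φ a (π x) z)
    (hlt : ((forcedOrd e s (Fintype.card X) (Nat.card {x : X // π x = x}) : ℕ) : ℕ∞) <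
      analyticOrderAt (fun z => Matrix.det (Matrix.of fun a x => Φ a x z)) z0) :
    ∃ c : X → ℂ, c ≠ 0 ∧ ∀ x, (e : ℕ∞) ≤ analyticOrderAt (fun z => ∑ a, c a * Φ a x z) z0 := by
  have he0 : e ≠ 0 := he.ne_zero
  have hP : permMat π ^ e = 1 := by rw [permMat_pow, hπ, permMat_one]
  obtain ⟨m, hm⟩ := exists_specMult (P := permMat π) he0 hζ hP
  rw [← sum_rotExp_mul_specMult he hζ s π hπ m hm] at hlt
  refine germ_exists_vanishing_combination_gen (Φ := fun z => Matrix.of fun a x => Φ a x z)
    he0 hζ hP hsig hsig0 hsig1 hu hu0 (fun a x => hΦ a x) ?_ m hm hlt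
  filter_upwards [eventually_matrix_symm π hsym] with z hz
  ext a x
  rw [Matrix.smul_apply, mul_permMat, Matrix.of_apply, Matrix.of_apply, smul_eq_mul]
  exact hz a x

/-- **Generic point** (trivial stabiliser): if `det (Φ a x z)` vanishes at `z0`, a nonzero
constant combination of the rows vanishes at `z0` in every column. -/
theorem generic_exists_vanishing_combination
    (hΦ : ∀ a x, AnalyticAt ℂ (Φ a x) z0)
    (hlt : (0 : ℕ∞) < analyticOrderAt (fun z => Matrix.det (Matrix.of fun a x => Φ a x z)) z0) :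
    ∃ c : X → ℂ, c ≠ 0 ∧ ∀ x, (1 : ℕ∞) ≤ analyticOrderAt (fun z => ∑ a, c a * Φ a x z) z0 := by
  have hdet : AnalyticAt ℂ (fun z => Matrix.det (Matrix.of fun a x => Φ a x z)) z0 :=
    analyticAt_det (M := fun z => Matrix.of fun a x => Φ a x z) fun a x => hΦ a x
  have h0 : Matrix.det (Matrix.of fun a x => Φ a x z0) = 0 := by
    by_contra hne
    have := hdet.analyticOrderAt_eq_zero.mpr hne
    rw [this] at hlt
    exact lt_irrefl _ hlt
  obtain ⟨c, hc0, hc⟩ := Matrix.exists_vecMul_eq_zero_iff.mpr h0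
  refine ⟨c, hc0, fun x => ?_⟩
  have han : AnalyticAt ℂ (fun z => ∑ a, c a * Φ a x z) z0 :=
    Finset.analyticAt_fun_sum _ fun a _ => analyticAt_const.mul (hΦ a x)
  have hne : analyticOrderAt (fun z => ∑ a, c a * Φ a x z) z0 ≠ 0 := by
    rw [Ne, han.analyticOrderAt_eq_zero, not_not]
    have := congrFun hc x
    simpa [Matrix.vecMul, dotProduct] using this
  exact Order.one_le_iff_ne_zero.mpr hne

end main

end Fermat.Agent.S20_helper90
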