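import Fermat.Agent.S20.Division
import Fermat.Agent.S20_helper90.PermForm

set_option autoImplicit false

/-!
The local determinant lemma in `ℍ`-language: for an element `h` of `SL(2, ℤ)` fixing `τ₀`, the
conjugate determinant `detFun k F` of a tuple of `Γ₀(N)`-invariant holomorphic functions vanishes
at `τ₀` at least to the forced order, and if the order is larger there is a nonzero constant
combination all of whose conjugates vanish to order `≥ e` at `τ₀`.
-/

open UpperHalfPlane ModularForm CongruenceSubgroup Matrix.SpecialLinearGroup Filter Topology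
open scoped MatrixGroups ModularForm Manifold

namespace Fermat.Agent.S20_helper90

open Fermat.Agent.S20 (X cj detFun conjMat mdiff_cj cj_apply_smul)

open Classical

section moebius

/-- The Möbius map of `h` as a function on `ℂ`. -/
noncomputable def moebius (h : SL(2, ℤ)) : ℂ → ℂ :=
  fun w => num (h : GL (Fin 2) ℝ) w / denom (h : GL (Fin 2) ℝ) w

lemma det_pos_coe (h : SL(2, ℤ)) : 0 < ((h : GL (Fin 2) ℝ)).det.val := by simp

lemma det_coe (h : SL(2, ℤ)) : (((h : GL (Fin 2) ℝ)).det.val : ℂ) = 1 := by simp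

lemma moebius_coe (h : SL(2, ℤ)) (z : ℍ) : moebius h z = ((h • z : ℍ) : ℂ) :=
  (coe_smul_of_det_pos (det_pos_coe h) z).symm

lemma analyticAt_moebius (h : SL(2, ℤ)) (τ0 : ℍ) : AnalyticAt ℂ (moebius h) (τ0 : ℂ) :=
  Fermat.Agent.S20.analyticAt_num_div_denom _ (denom_ne_zero _ τ0)

lemma deriv_moebius (h : SL(2, ℤ)) (τ0 : ℍ) :
    deriv (moebius h) (τ0 : ℂ) = (denom h τ0 ^ 2)⁻¹ := by
  have := (Fermat.Agent.S20.hasDerivAt_num_div_denom (h : GL (Fin 2) ℝ)
    (denom_ne_zero (h : GL (Fin 2) ℝ) τ0)).deriv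
  unfold moebius
  rw [this, det_coe, one_div]

lemma ofComplex_moebius (h : SL(2, ℤ)) {w : ℂ} (hw : 0 < w.im) :
    ofComplex (moebius h w) = h • ofComplex w := by
  rw [ofComplex_apply_of_im_pos hw]
  have : moebius h w = ((h • (⟨w, hw⟩ : ℍ) : ℍ) : ℂ) := moebius_coe h ⟨w, hw⟩
  rw [this, ofComplex_apply]

/-- The automorphy factor as a function on `ℂ`. -/
noncomputable def autFactor (h : SL(2, ℤ)) (k : ℤ) : ℂ → ℂ :=
  fun w => denom (h : GL (Fin 2) ℝ) w ^ k

lemma analyticAt_autFactor (h : SL(2, ℤ)) (k : ℤ) (τ0 : ℍ) :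
    AnalyticAt ℂ (autFactor h k) (τ0 : ℂ) := by
  have h2 : AnalyticAt ℂ (fun w : ℂ => denom (h : GL (Fin 2) ℝ) w) (τ0 : ℂ) := by
    unfold denom
    fun_prop
  exact h2.zpow (denom_ne_zero _ τ0)

end moebius

section chart

variable {N : ℕ} [NeZero N] {k : ℤ} {F : X N → ℍ → ℂ}

omit [NeZero N] in
/-- The symmetry of the conjugates under a stabiliser element, in the chart `ℂ ⊇ ℍ`. -/
lemma eventually_cj_symm (hF : ∀ a, ∀ γ ∈ Gamma0 N, F a ∣[k] γ = F a) (h : SL(2, ℤ)) (τ0 : ℍ)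
    (a x : X N) :
    ∀ᶠ z in 𝓝 (τ0 : ℂ), (cj k (F a) x ∘ ofComplex) (moebius h z) =
      autFactor h k z * (cj k (F a) (MulAction.toPerm h⁻¹ x) ∘ ofComplex) z := by
  filter_upwards [isOpen_upperHalfPlaneSet.mem_nhds τ0.im_pos] with w hw
  simp only [Function.comp_apply]
  rw [ofComplex_moebius h hw, cj_apply_smul (hF a) x h (ofComplex w)]
  rw [ofComplex_apply_of_im_pos hw]
  rfl

variable (hF : ∀ a, ∀ γ ∈ Gamma0 N, F a ∣[k] γ = F a) (hmd : ∀ a, MDiff (F a))

include hF hmd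

/-- **(L1')** the order of the conjugate determinant at a point fixed by `h`. -/
theorem detFun_order_ge_of_stabilizer (h : SL(2, ℤ)) (τ0 : ℍ) (hfix : h • τ0 = τ0) {e : ℕ}
    (he : e.Prime) (hζ : IsPrimitiveRoot ((denom h τ0 ^ 2)⁻¹) e)
    (hπ : (MulAction.toPerm h⁻¹ : Equiv.Perm (X N)) ^ e = 1) (s : ℕ)
    (hs : denom h τ0 ^ k = ((denom h τ0 ^ 2)⁻¹) ^ s) :
    ((forcedOrd e s (Fintype.card (X N)) (Nat.card {x : X N // h⁻¹ • x = x}) : ℕ) : ℕ∞) ≤
      analyticOrderAt (detFun k F ∘ ofComplex) (τ0 : ℂ) := by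
  have hsig0 : moebius h (τ0 : ℂ) = (τ0 : ℂ) := by rw [moebius_coe, hfix]
  exact @germ_le_analyticOrderAt_det (X N) _ _ e _ (τ0 : ℂ) (moebius h) (autFactor h k)
    (fun a x => cj k (F a) x ∘ ofComplex) he hζ s (MulAction.toPerm h⁻¹) hπ
    (analyticAt_moebius h τ0) hsig0 (deriv_moebius h τ0) (analyticAt_autFactor h k τ0) hs
    (fun a x => Fermat.Agent.LevelOne_helper29.analyticAt_comp_ofComplex
      (mdiff_cj (hmd a) x) τ0)
    (fun a x => eventually_cj_symm hF h τ0 a x)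

/-- **(L2')** the saturation alternative at a point fixed by `h`. -/
theorem exists_combination_of_stabilizer (h : SL(2, ℤ)) (τ0 : ℍ) (hfix : h • τ0 = τ0) {e : ℕ}
    (he : e.Prime) (hζ : IsPrimitiveRoot ((denom h τ0 ^ 2)⁻¹) e)
    (hπ : (MulAction.toPerm h⁻¹ : Equiv.Perm (X N)) ^ e = 1) (s : ℕ)
    (hs : denom h τ0 ^ k = ((denom h τ0 ^ 2)⁻¹) ^ s)
    (hlt : ((forcedOrd e s (Fintype.card (X N)) (Nat.card {x : X N // h⁻¹ • x = x}) : ℕ) : ℕ∞) <
      analyticOrderAt (detFun k F ∘ ofComplex) (τ0 : ℂ)) :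
    ∃ c : X N → ℂ, c ≠ 0 ∧ ∀ x : X N, (e : ℕ∞) ≤
      analyticOrderAt ((fun z => ∑ a, c a * cj k (F a) x z) ∘ ofComplex) (τ0 : ℂ) := by
  have hsig0 : moebius h (τ0 : ℂ) = (τ0 : ℂ) := by rw [moebius_coe, hfix]
  exact @germ_exists_vanishing_combination (X N) _ _ e _ (τ0 : ℂ) (moebius h) (autFactor h k)
    (fun a x => cj k (F a) x ∘ ofComplex) he hζ s (MulAction.toPerm h⁻¹) hπ
    (analyticAt_moebius h τ0) hsig0 (deriv_moebius h τ0) (analyticAt_autFactor h k τ0) hs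
    (fun a x => Fermat.Agent.LevelOne_helper29.analyticAt_comp_ofComplex
      (mdiff_cj (hmd a) x) τ0)
    (fun a x => eventually_cj_symm hF h τ0 a x) hlt

omit hF in
/-- **Generic point**: if the conjugate determinant vanishes at `τ₀`, a nonzero constant
combination has all conjugates vanishing at `τ₀`. -/
theorem exists_combination_generic (τ0 : ℍ)
    (hlt : (0 : ℕ∞) < analyticOrderAt (detFun k F ∘ ofComplex) (τ0 : ℂ)) :
    ∃ c : X N → ℂ, c ≠ 0 ∧ ∀ x : X N, (1 : ℕ∞) ≤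
      analyticOrderAt ((fun z => ∑ a, c a * cj k (F a) x z) ∘ ofComplex) (τ0 : ℂ) :=
  @generic_exists_vanishing_combination (X N) _ _ (τ0 : ℂ)
    (fun a x => cj k (F a) x ∘ ofComplex)
    (fun a x => Fermat.Agent.LevelOne_helper29.analyticAt_comp_ofComplex
      (mdiff_cj (hmd a) x) τ0) hlt

end chart

end Fermat.Agent.S20_helper90
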