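import Mathlib

set_option autoImplicit false

/-!
Analytic germs at `0` with a rotation symmetry `g (ζ w) = ζ ^ k * g w`.
-/

namespace Fermat.Agent.S20_helper90

open Filter Topology

/-- If `w ^ r * F w = 0` near `0` for an analytic germ `F`, then `F = 0` near `0`. -/
theorem eventually_eq_zero_of_pow_mul {F : ℂ → ℂ} (hF : AnalyticAt ℂ F 0) (r : ℕ)
    (h : ∀ᶠ w in 𝓝 (0 : ℂ), w ^ r * F w = 0) : ∀ᶠ w in 𝓝 (0 : ℂ), F w = 0 := by
  rcases hF.eventually_eq_zero_or_eventually_ne_zero with h0 | hne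
  · exact h0
  · exfalso
    have h' : ∀ᶠ w in 𝓝[≠] (0 : ℂ), w ^ r * F w = 0 := h.filter_mono nhdsWithin_le_nhds
    have hmem : ∀ᶠ w in 𝓝[≠] (0 : ℂ), w ≠ 0 := eventually_mem_nhdsWithin
    have hfalse : ∀ᶠ w in 𝓝[≠] (0 : ℂ), False := by
      filter_upwards [h', hne, hmem] with w h1 h2 h3
      rcases mul_eq_zero.mp h1 with h4 | h4
      · exact h3 (eq_zero_of_pow_eq_zero h4)
      · exact h2 h4
    have hne : NeBot (𝓝[≠] (0 : ℂ)) := NormedField.nhdsNE_neBot 0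
    exact hne.ne (eventually_false_iff_eq_bot.mp hfalse)

theorem tendsto_mul_left_zero (ζ : ℂ) : Tendsto (fun w : ℂ => ζ * w) (𝓝 0) (𝓝 0) := by
  have : Continuous fun w : ℂ => ζ * w := continuous_const.mul continuous_id
  simpa using this.tendsto 0

theorem analyticAt_comp_mul_left {g : ℂ → ℂ} (hg : AnalyticAt ℂ g 0) (ζ : ℂ) :
    AnalyticAt ℂ (fun w => g (ζ * w)) 0 := by
  have h1 : AnalyticAt ℂ (fun w : ℂ => ζ * w) 0 := analyticAt_const.mul analyticAt_id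
  have h2 : AnalyticAt ℂ g ((fun w : ℂ => ζ * w) 0) := by simpa using hg
  exact h2.comp h1

/-- The order at `0` of a germ with `g (ζ w) = ζ ^ k g w` is `⊤` or congruent to `k` mod `e`. -/
theorem analyticOrderAt_mod_of_rotation {e : ℕ} (he : e ≠ 0) {ζ : ℂ} (hζ : IsPrimitiveRoot ζ e)
    {g : ℂ → ℂ} (hg : AnalyticAt ℂ g 0) {k : ℕ}
    (hsym : ∀ᶠ w in 𝓝 (0 : ℂ), g (ζ * w) = ζ ^ k * g w) :
    analyticOrderAt g 0 = ⊤ ∨ ∃ m : ℕ, analyticOrderAt g 0 = m ∧ m % e = k % e := by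
  by_cases htop : analyticOrderAt g 0 = ⊤
  · exact Or.inl htop
  right
  obtain ⟨m, hm⟩ := ENat.ne_top_iff_exists.mp htop
  refine ⟨m, hm.symm, ?_⟩
  obtain ⟨u, hu, hu0, hgu⟩ := (hg.analyticOrderAt_eq_natCast).mp hm.symm
  simp only [sub_zero, smul_eq_mul] at hgu
  have hgu' : ∀ᶠ w in 𝓝 (0 : ℂ), g (ζ * w) = (ζ * w) ^ m * u (ζ * w) :=
    (tendsto_mul_left_zero ζ).eventually hgu
  set F : ℂ → ℂ := fun w => ζ ^ m * u (ζ * w) - ζ ^ k * u w with hFdef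
  have hF : AnalyticAt ℂ F 0 :=
    (analyticAt_const.mul (analyticAt_comp_mul_left hu ζ)).sub (analyticAt_const.mul hu)
  have hF0 : ∀ᶠ w in 𝓝 (0 : ℂ), w ^ m * F w = 0 := by
    filter_upwards [hsym, hgu, hgu'] with w h1 h2 h3
    rw [h3, h2] at h1
    simp only [hFdef]
    rw [mul_pow] at h1
    linear_combination h1
  have hF00 : F 0 = 0 := (eventually_eq_zero_of_pow_mul hF m hF0).self_of_nhds
  simp only [hFdef, mul_zero] at hF00
  have hpow : ζ ^ m = ζ ^ k := by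
    have : (ζ ^ m - ζ ^ k) * u 0 = 0 := by linear_combination hF00
    rcases mul_eq_zero.mp this with h | h
    · exact sub_eq_zero.mp h
    · exact absurd h hu0
  have hord : orderOf ζ = e := hζ.eq_orderOf.symm
  have h1 : ζ ^ (m % e) = ζ ^ (k % e) := by
    rw [← hord, pow_mod_orderOf, pow_mod_orderOf, hpow]
  exact hζ.pow_inj (Nat.mod_lt _ (Nat.pos_of_ne_zero he)) (Nat.mod_lt _ (Nat.pos_of_ne_zero he)) h1

/-- A germ with `g (ζ w) = ζ ^ k g w` is `w ^ (k % e)` times a rotation-invariant germ. -/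
theorem exists_factor_of_rotation {e : ℕ} (he : e ≠ 0) {ζ : ℂ} (hζ : IsPrimitiveRoot ζ e)
    {g : ℂ → ℂ} (hg : AnalyticAt ℂ g 0) {k : ℕ}
    (hsym : ∀ᶠ w in 𝓝 (0 : ℂ), g (ζ * w) = ζ ^ k * g w) :
    ∃ h : ℂ → ℂ, AnalyticAt ℂ h 0 ∧ (∀ᶠ w in 𝓝 (0 : ℂ), g w = w ^ (k % e) * h w) ∧
      ∀ᶠ w in 𝓝 (0 : ℂ), h (ζ * w) = h w := by
  have hle : ((k % e : ℕ) : ℕ∞) ≤ analyticOrderAt g 0 := by
    rcases analyticOrderAt_mod_of_rotation he hζ hg hsym with h | ⟨m, hm, hmod⟩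
    · rw [h]; exact le_top
    · rw [hm]
      have : k % e ≤ m := by
        rw [← hmod]; exact Nat.mod_le _ _
      exact_mod_cast this
  obtain ⟨h, hh, hgh⟩ := (natCast_le_analyticOrderAt hg).mp hle
  simp only [sub_zero, smul_eq_mul] at hgh
  refine ⟨h, hh, hgh, ?_⟩
  have hgh' : ∀ᶠ w in 𝓝 (0 : ℂ), g (ζ * w) = (ζ * w) ^ (k % e) * h (ζ * w) :=
    (tendsto_mul_left_zero ζ).eventually hgh
  have hord : orderOf ζ = e := hζ.eq_orderOf.symm
  have hpow : ζ ^ (k % e) = ζ ^ k := by rw [← hord, pow_mod_orderOf]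
  have hζ0 : ζ ≠ 0 := hζ.ne_zero he
  set F : ℂ → ℂ := fun w => h (ζ * w) - h w with hFdef
  have hF : AnalyticAt ℂ F 0 := (analyticAt_comp_mul_left hh ζ).sub hh
  have hF0 : ∀ᶠ w in 𝓝 (0 : ℂ), w ^ (k % e) * F w = 0 := by
    filter_upwards [hsym, hgh, hgh'] with w h1 h2 h3
    rw [h3, h2, mul_pow, hpow] at h1
    simp only [hFdef]
    have h4 : ζ ^ k * (w ^ (k % e) * (h (ζ * w) - h w)) = 0 := by linear_combination h1
    exact (mul_eq_zero.mp h4).resolve_left (pow_ne_zero _ hζ0)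
  filter_upwards [eventually_eq_zero_of_pow_mul hF _ hF0] with w hw
  simpa [hFdef, sub_eq_zero] using hw

/-- A rotation-invariant analytic germ vanishing at `0` vanishes to order at least `e`. -/
theorem le_analyticOrderAt_of_rotation_invariant {e : ℕ} (he : e ≠ 0) {ζ : ℂ}
    (hζ : IsPrimitiveRoot ζ e) {h : ℂ → ℂ} (hh : AnalyticAt ℂ h 0)
    (hsym : ∀ᶠ w in 𝓝 (0 : ℂ), h (ζ * w) = h w) (h0 : h 0 = 0) :
    (e : ℕ∞) ≤ analyticOrderAt h 0 := by
  have hsym' : ∀ᶠ w in 𝓝 (0 : ℂ), h (ζ * w) = ζ ^ 0 * h w := by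
    simpa using hsym
  rcases analyticOrderAt_mod_of_rotation he hζ hh hsym' with htop | ⟨m, hm, hmod⟩
  · rw [htop]; exact le_top
  · rw [hm]
    have hm0 : m ≠ 0 := by
      intro hm0
      subst hm0
      have := (hh.analyticOrderAt_eq_zero).mp (by simpa using hm)
      exact this h0
    have : e ∣ m := by
      rw [Nat.dvd_iff_mod_eq_zero, hmod, Nat.zero_mod]
    exact_mod_cast Nat.le_of_dvd (Nat.pos_of_ne_zero hm0) this

end Fermat.Agent.S20_helper90
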