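import Fermat.Agent.S20_helper90.SpecProj
import Fermat.Agent.S20_helper90.Rotation

set_option autoImplicit false

/-!
Vanishing order of the determinant of a matrix of analytic germs with a cyclic symmetry
`Φ (ζ w) = ζ ^ s • Φ w * P`, `P ^ e = 1`, and the saturation alternative.
-/

namespace Fermat.Agent.S20_helper90

open Matrix Finset Filter Topology

variable {n : Type*} [Fintype n] [DecidableEq n]

/-- The determinant of a matrix of analytic germs is analytic. -/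
theorem analyticAt_det {M : ℂ → Matrix n n ℂ} {z : ℂ}
    (hM : ∀ i x, AnalyticAt ℂ (fun w => M w i x) z) : AnalyticAt ℂ (fun w => (M w).det) z := by
  simp only [Matrix.det_apply']
  refine Finset.analyticAt_fun_sum _ fun σ _ => ?_
  refine AnalyticAt.mul analyticAt_const ?_
  exact Finset.analyticAt_fun_prod _ fun i _ => hM _ _

omit [DecidableEq n] in
/-- Entries of `M w * E` are analytic if those of `M` are. -/
theorem analyticAt_mul_const {M : ℂ → Matrix n n ℂ} {z : ℂ}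
    (hM : ∀ i x, AnalyticAt ℂ (fun w => M w i x) z) (E : Matrix n n ℂ) (i x : n) :
    AnalyticAt ℂ (fun w => (M w * E) i x) z := by
  simp only [Matrix.mul_apply]
  exact Finset.analyticAt_fun_sum _ fun y _ => (hM i y).mul analyticAt_const


section main

variable {e : ℕ} {ζ : ℂ} {P : Matrix n n ℂ} {s : ℕ} {Φ : ℂ → Matrix n n ℂ}

/-- The entries of `Φ w * E_l` have the rotation symmetry with exponent `s + l`. -/
theorem mul_specProj_symm (he : e ≠ 0) (hζ : IsPrimitiveRoot ζ e) (hP : P ^ e = 1)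
    (hsym : ∀ᶠ w in 𝓝 (0 : ℂ), Φ (ζ * w) = ζ ^ s • (Φ w * P)) (l : ℕ) :
    ∀ᶠ w in 𝓝 (0 : ℂ), Φ (ζ * w) * specProj e ζ P l = ζ ^ (s + l) • (Φ w * specProj e ζ P l) := by
  filter_upwards [hsym] with w hw
  rw [hw, Matrix.smul_mul, Matrix.mul_assoc, mul_specProj he hζ hP, Matrix.mul_smul, smul_smul,
    pow_add]

/-- Factorisation of the isotypic parts `Φ w * E_l = w ^ r_l • H_l w` with `H_l` analytic and
rotation invariant. -/
theorem exists_isotypic_factor (he : e ≠ 0) (hζ : IsPrimitiveRoot ζ e) (hP : P ^ e = 1)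
    (hΦ : ∀ i x, AnalyticAt ℂ (fun w => Φ w i x) 0)
    (hsym : ∀ᶠ w in 𝓝 (0 : ℂ), Φ (ζ * w) = ζ ^ s • (Φ w * P)) :
    ∃ H : ℕ → ℂ → Matrix n n ℂ,
      (∀ l i x, AnalyticAt ℂ (fun w => H l w i x) 0) ∧
      (∀ l, ∀ᶠ w in 𝓝 (0 : ℂ), Φ w * specProj e ζ P l = w ^ ((s + l) % e) • H l w) ∧
      (∀ l, ∀ᶠ w in 𝓝 (0 : ℂ), H l (ζ * w) = H l w) := by
  have hex : ∀ l i x, ∃ h : ℂ → ℂ, AnalyticAt ℂ h 0 ∧
      (∀ᶠ w in 𝓝 (0 : ℂ), (Φ w * specProj e ζ P l) i x = w ^ ((s + l) % e) * h w) ∧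
      ∀ᶠ w in 𝓝 (0 : ℂ), h (ζ * w) = h w := by
    intro l i x
    refine exists_factor_of_rotation he hζ (analyticAt_mul_const hΦ _ i x) ?_
    filter_upwards [mul_specProj_symm he hζ hP hsym l] with w hw
    rw [hw, Matrix.smul_apply, smul_eq_mul]
  choose h hh1 hh2 hh3 using hex
  refine ⟨fun l w => Matrix.of fun i x => h l i x w, fun l i x => hh1 l i x, fun l => ?_,
    fun l => ?_⟩
  · have : ∀ᶠ w in 𝓝 (0 : ℂ), ∀ i x,
        (Φ w * specProj e ζ P l) i x = w ^ ((s + l) % e) * h l i x w := by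
      rw [Filter.eventually_all]; intro i
      rw [Filter.eventually_all]; intro x
      exact hh2 l i x
    filter_upwards [this] with w hw
    ext i x
    rw [hw, Matrix.smul_apply, Matrix.of_apply, smul_eq_mul]
  · have : ∀ᶠ w in 𝓝 (0 : ℂ), ∀ i x, h l i x (ζ * w) = h l i x w := by
      rw [Filter.eventually_all]; intro i
      rw [Filter.eventually_all]; intro x
      exact hh3 l i x
    filter_upwards [this] with w hw
    ext i x
    simp only [Matrix.of_apply, hw]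


/-- The exponents `r l = (s + l) % e`. -/
def rotExp (e s l : ℕ) : ℕ := (s + l) % e

/-- Global factorisation `Φ w = Ψ w * D w` with `Ψ` analytic, `D w = ∑ l, w ^ r l • E_l`,
together with the isotypic pieces `H l` of `Ψ = ∑ l, H l * E_l`. -/
theorem exists_factorization (he : e ≠ 0) (hζ : IsPrimitiveRoot ζ e) (hP : P ^ e = 1)
    (hΦ : ∀ i x, AnalyticAt ℂ (fun w => Φ w i x) 0)
    (hsym : ∀ᶠ w in 𝓝 (0 : ℂ), Φ (ζ * w) = ζ ^ s • (Φ w * P)) :
    ∃ H : ℕ → ℂ → Matrix n n ℂ,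
      (∀ l i x, AnalyticAt ℂ (fun w => H l w i x) 0) ∧
      (∀ l, ∀ᶠ w in 𝓝 (0 : ℂ), Φ w * specProj e ζ P l = w ^ (rotExp e s l) • H l w) ∧
      (∀ l, ∀ᶠ w in 𝓝 (0 : ℂ), H l (ζ * w) = H l w) ∧
      ∀ᶠ w in 𝓝 (0 : ℂ), Φ w = (∑ l ∈ range e, H l w * specProj e ζ P l) *
        twistMat e (rotExp e s) (specProj e ζ P) w := by
  obtain ⟨H, hH1, hH2, hH3⟩ := exists_isotypic_factor he hζ hP hΦ hsym
  refine ⟨H, hH1, hH2, hH3, ?_⟩
  have hall : ∀ᶠ w in 𝓝 (0 : ℂ), ∀ l ∈ range e,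
      Φ w * specProj e ζ P l = w ^ (rotExp e s l) • H l w := by
    rw [Filter.eventually_all_finset]
    intro l _
    exact hH2 l
  filter_upwards [hall] with w hw
  unfold twistMat
  rw [Finset.sum_mul]
  have h1 : ∀ l ∈ range e, H l w * specProj e ζ P l *
      ∑ l' ∈ range e, w ^ rotExp e s l' • specProj e ζ P l' =
      Φ w * specProj e ζ P l := by
    intro l hl
    have hl' := Finset.mem_range.mp hl
    rw [Finset.mul_sum]
    rw [Finset.sum_eq_single l]
    · rw [Matrix.mul_smul, Matrix.mul_assoc, specProj_idem he hζ hP hl', ← Matrix.smul_mul,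
        ← hw l hl, Matrix.mul_assoc, specProj_idem he hζ hP hl']
    · intro l' hl'' hne
      rw [Matrix.mul_smul, Matrix.mul_assoc,
        specProj_mul_of_ne he hζ hP (Finset.mem_range.mp hl'') hl' hne.symm, Matrix.mul_zero,
        smul_zero]
    · intro h; exact absurd hl h
  rw [Finset.sum_congr rfl h1, ← Finset.mul_sum, sum_specProj he hζ, Matrix.mul_one]


/-- The multiplicities: natural numbers `m l` with `(m l : ℂ) = trace E_l`. -/
theorem exists_specMult (he : e ≠ 0) (hζ : IsPrimitiveRoot ζ e) (hP : P ^ e = 1) :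
    ∃ m : ℕ → ℕ, ∀ l < e, (m l : ℂ) = trace (specProj e ζ P l) := by
  obtain ⟨m, hm, -⟩ := det_twistMat (specProj e ζ P) e
    (fun l hl => specProj_idem he hζ hP hl)
    (fun l hl l' hl' hne => specProj_mul_of_ne he hζ hP hl' hl hne)
    (sum_specProj he hζ P) (fun _ => 0)
  exact ⟨m, hm⟩

/-- `det Φ w = det Ψ w * w ^ d` near `0`, `Ψ` analytic. -/
theorem exists_det_factorization (he : e ≠ 0) (hζ : IsPrimitiveRoot ζ e) (hP : P ^ e = 1)
    (hΦ : ∀ i x, AnalyticAt ℂ (fun w => Φ w i x) 0)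
    (hsym : ∀ᶠ w in 𝓝 (0 : ℂ), Φ (ζ * w) = ζ ^ s • (Φ w * P))
    (m : ℕ → ℕ) (hm : ∀ l < e, (m l : ℂ) = trace (specProj e ζ P l)) :
    ∃ H : ℕ → ℂ → Matrix n n ℂ,
      (∀ l i x, AnalyticAt ℂ (fun w => H l w i x) 0) ∧
      (∀ l, ∀ᶠ w in 𝓝 (0 : ℂ), Φ w * specProj e ζ P l = w ^ (rotExp e s l) • H l w) ∧
      (∀ l, ∀ᶠ w in 𝓝 (0 : ℂ), H l (ζ * w) = H l w) ∧
      ∀ᶠ w in 𝓝 (0 : ℂ), (Φ w).det = (∑ l ∈ range e, H l w * specProj e ζ P l).det *
        w ^ (∑ l ∈ range e, rotExp e s l * m l) := by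
  obtain ⟨H, hH1, hH2, hH3, hH4⟩ := exists_factorization he hζ hP hΦ hsym
  obtain ⟨m', hm', hdet⟩ := det_twistMat (specProj e ζ P) e
    (fun l hl => specProj_idem he hζ hP hl)
    (fun l hl l' hl' hne => specProj_mul_of_ne he hζ hP hl' hl hne)
    (sum_specProj he hζ P) (rotExp e s)
  have hmm : ∑ l ∈ range e, rotExp e s l * m' l = ∑ l ∈ range e, rotExp e s l * m l := by
    refine Finset.sum_congr rfl fun l hl => ?_
    have hl' := Finset.mem_range.mp hl
    have : m' l = m l := Nat.cast_injective (R := ℂ) ((hm' l hl').trans (hm l hl').symm)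
    rw [this]
  refine ⟨H, hH1, hH2, hH3, ?_⟩
  filter_upwards [hH4] with w hw
  rw [← hmm, ← hdet w, ← det_mul, ← hw]

/-- **Order of the determinant**: `ord₀ det Φ ≥ ∑ l, r l * m l`. -/
theorem le_analyticOrderAt_det (he : e ≠ 0) (hζ : IsPrimitiveRoot ζ e) (hP : P ^ e = 1)
    (hΦ : ∀ i x, AnalyticAt ℂ (fun w => Φ w i x) 0)
    (hsym : ∀ᶠ w in 𝓝 (0 : ℂ), Φ (ζ * w) = ζ ^ s • (Φ w * P))
    (m : ℕ → ℕ) (hm : ∀ l < e, (m l : ℂ) = trace (specProj e ζ P l)) :
    ((∑ l ∈ range e, rotExp e s l * m l : ℕ) : ℕ∞) ≤ analyticOrderAt (fun w => (Φ w).det) 0 := by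
  obtain ⟨H, hH1, -, -, hdet⟩ := exists_det_factorization he hζ hP hΦ hsym m hm
  have hΨ : AnalyticAt ℂ (fun w => (∑ l ∈ range e, H l w * specProj e ζ P l).det) 0 := by
    refine analyticAt_det fun i x => ?_
    simp only [Matrix.sum_apply]
    exact Finset.analyticAt_fun_sum _ fun l _ => analyticAt_mul_const (hH1 l) _ i x
  rw [natCast_le_analyticOrderAt (analyticAt_det hΦ)]
  refine ⟨_, hΨ, ?_⟩
  filter_upwards [hdet] with w hw
  rw [hw, sub_zero, smul_eq_mul, mul_comm]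

/-- **Saturation alternative**: if the order of `det Φ` is strictly larger than `∑ l, r l * m l`
then a nonzero constant combination of the rows vanishes to order `≥ e` in every column. -/
theorem exists_vanishing_combination (he : e ≠ 0) (hζ : IsPrimitiveRoot ζ e) (hP : P ^ e = 1)
    (hΦ : ∀ i x, AnalyticAt ℂ (fun w => Φ w i x) 0)
    (hsym : ∀ᶠ w in 𝓝 (0 : ℂ), Φ (ζ * w) = ζ ^ s • (Φ w * P))
    (m : ℕ → ℕ) (hm : ∀ l < e, (m l : ℂ) = trace (specProj e ζ P l))
    (hlt : ((∑ l ∈ range e, rotExp e s l * m l : ℕ) : ℕ∞) <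
      analyticOrderAt (fun w => (Φ w).det) 0) :
    ∃ c : n → ℂ, c ≠ 0 ∧ ∀ x, (e : ℕ∞) ≤ analyticOrderAt (fun w => ∑ i, c i * Φ w i x) 0 := by
  obtain ⟨H, hH1, hH2, hH3, hdet⟩ := exists_det_factorization he hζ hP hΦ hsym m hm
  set d := ∑ l ∈ range e, rotExp e s l * m l with hd
  set Ψ : ℂ → Matrix n n ℂ := fun w => ∑ l ∈ range e, H l w * specProj e ζ P l with hΨdef
  have hΨe : ∀ i x, AnalyticAt ℂ (fun w => Ψ w i x) 0 := by
    intro i x
    simp only [hΨdef, Matrix.sum_apply]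
    exact Finset.analyticAt_fun_sum _ fun l _ => analyticAt_mul_const (hH1 l) _ i x
  have hΨ : AnalyticAt ℂ (fun w => (Ψ w).det) 0 := analyticAt_det hΨe
  -- det Ψ 0 = 0
  have hΨ0 : (Ψ 0).det = 0 := by
    by_contra hne
    have h0 : analyticOrderAt (fun w => (Ψ w).det) 0 = 0 := hΨ.analyticOrderAt_eq_zero.mpr hne
    have hcongr : analyticOrderAt (fun w => (Φ w).det) 0 =
        analyticOrderAt (fun w => (Ψ w).det * w ^ d) 0 := analyticOrderAt_congr hdet
    have hpow : analyticOrderAt ((id : ℂ → ℂ) ^ d) 0 = d := by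
      have h1 := analyticOrderAt_pow (𝕜 := ℂ) (f := id) (z₀ := 0) analyticAt_id d
      have h2 : analyticOrderAt (id : ℂ → ℂ) 0 = 1 := by
        simp
      rw [h1, h2]
      simp
    have hmul : analyticOrderAt (fun w => (Ψ w).det * w ^ d) 0 = d := by
      have h3 := analyticOrderAt_mul (𝕜 := ℂ) (z₀ := 0) hΨ (analyticAt_id.pow d)
      rw [show (fun w => (Ψ w).det * w ^ d) = (fun w => (Ψ w).det) * ((id : ℂ → ℂ) ^ d) from rfl,
        h3, h0, zero_add]
      exact hpow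
    rw [hcongr, hmul] at hlt
    exact lt_irrefl _ hlt
  obtain ⟨c, hc0, hc⟩ := Matrix.exists_vecMul_eq_zero_iff.mpr hΨ0
  refine ⟨c, hc0, fun x => ?_⟩
  -- the isotypic components of `c ᵥ* Ψ 0` vanish
  have hcomp : ∀ l ∈ range e, c ᵥ* (H l 0 * specProj e ζ P l) = 0 := by
    intro l hl
    have hl' := Finset.mem_range.mp hl
    have h1 : c ᵥ* (Ψ 0 * specProj e ζ P l) = c ᵥ* (H l 0 * specProj e ζ P l) := by
      congr 1
      simp only [hΨdef]
      rw [Finset.sum_mul, Finset.sum_eq_single l]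
      · rw [Matrix.mul_assoc, specProj_idem he hζ hP hl']
      · intro l' hl'' hne
        rw [Matrix.mul_assoc, specProj_mul_of_ne he hζ hP hl' (Finset.mem_range.mp hl'') hne,
          Matrix.mul_zero]
      · intro h; exact absurd hl h
    rw [← h1, ← Matrix.vecMul_vecMul, hc, Matrix.zero_vecMul]
  -- each isotypic component vanishes to order ≥ e
  have hk : ∀ l ∈ range e, ∃ g : ℂ → ℂ, AnalyticAt ℂ g 0 ∧
      ∀ᶠ w in 𝓝 (0 : ℂ), (c ᵥ* (H l w * specProj e ζ P l)) x = w ^ e * g w := by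
    intro l hl
    have han : AnalyticAt ℂ (fun w => (c ᵥ* (H l w * specProj e ζ P l)) x) 0 := by
      simp only [Matrix.vecMul, dotProduct]
      exact Finset.analyticAt_fun_sum _ fun i _ =>
        analyticAt_const.mul (analyticAt_mul_const (hH1 l) _ i x)
    have hinv : ∀ᶠ w in 𝓝 (0 : ℂ), (c ᵥ* (H l (ζ * w) * specProj e ζ P l)) x =
        (c ᵥ* (H l w * specProj e ζ P l)) x := by
      filter_upwards [hH3 l] with w hw
      rw [hw]
    have h0 : (c ᵥ* (H l 0 * specProj e ζ P l)) x = 0 := by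
      rw [hcomp l hl]; rfl
    have hle := le_analyticOrderAt_of_rotation_invariant he hζ han hinv h0
    obtain ⟨g, hg, hg'⟩ := (natCast_le_analyticOrderAt han).mp hle
    refine ⟨g, hg, ?_⟩
    filter_upwards [hg'] with w hw
    rw [hw, sub_zero, smul_eq_mul]
  choose! g hg1 hg2 using hk
  have hsumform : ∀ᶠ w in 𝓝 (0 : ℂ), ∑ i, c i * Φ w i x =
      w ^ e * ∑ l ∈ range e, w ^ rotExp e s l * g l w := by
    have hall2 : ∀ᶠ w in 𝓝 (0 : ℂ), ∀ l ∈ range e,
        Φ w * specProj e ζ P l = w ^ (rotExp e s l) • H l w := by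
      rw [Filter.eventually_all_finset]
      intro l _
      exact hH2 l
    have hall3 : ∀ᶠ w in 𝓝 (0 : ℂ), ∀ l ∈ range e,
        (c ᵥ* (H l w * specProj e ζ P l)) x = w ^ e * g l w := by
      rw [Filter.eventually_all_finset]
      intro l hl
      exact hg2 l hl
    filter_upwards [hall2, hall3] with w hw2 hw3
    have hΦw : Φ w = ∑ l ∈ range e, w ^ rotExp e s l • (H l w * specProj e ζ P l) := by
      calc Φ w = Φ w * ∑ l ∈ range e, specProj e ζ P l := by
            rw [sum_specProj he hζ, Matrix.mul_one]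
        _ = ∑ l ∈ range e, Φ w * specProj e ζ P l * specProj e ζ P l := by
            rw [Finset.mul_sum]
            refine Finset.sum_congr rfl fun l hl => ?_
            rw [Matrix.mul_assoc, specProj_idem he hζ hP (Finset.mem_range.mp hl)]
        _ = ∑ l ∈ range e, w ^ rotExp e s l • (H l w * specProj e ζ P l) := by
            refine Finset.sum_congr rfl fun l hl => ?_
            rw [hw2 l hl, Matrix.smul_mul]
    have h1 : ∑ i, c i * Φ w i x = (c ᵥ* Φ w) x := by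
      simp only [Matrix.vecMul, dotProduct]
    rw [h1, hΦw, Matrix.vecMul_sum, Finset.sum_apply, Finset.mul_sum]
    refine Finset.sum_congr rfl fun l hl => ?_
    rw [Matrix.vecMul_smul, Pi.smul_apply, smul_eq_mul, hw3 l hl]
    ring
  have hanal : AnalyticAt ℂ (fun w => ∑ i, c i * Φ w i x) 0 :=
    Finset.analyticAt_fun_sum _ fun i _ => analyticAt_const.mul (hΦ i x)
  rw [natCast_le_analyticOrderAt hanal]
  refine ⟨fun w => ∑ l ∈ range e, w ^ rotExp e s l * g l w, ?_, ?_⟩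
  · exact Finset.analyticAt_fun_sum _ fun l hl => (analyticAt_id.pow _).mul (hg1 l hl)
  · filter_upwards [hsumform] with w hw
    rw [hw, sub_zero, smul_eq_mul]

end main

end Fermat.Agent.S20_helper90
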