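import Fermat.Agent.S20_helper90.DetOrder

set_option autoImplicit false

/-!
Abstract core of the local determinant lemma at a point `z0`: a matrix of analytic germs `Φ`,
a matrix `P` with `P ^ e = 1` and spectral projections `E_l`, and the hypothesis that all
constant row combinations of `Φ z * E_l` have order `⊤` or `≡ r l` modulo `e`.
-/

namespace Fermat.Agent.S20_helper90

open Matrix Finset Filter Topology

variable {n : Type*} [Fintype n] [DecidableEq n]

/-- The order hypothesis: every constant combination of the rows of `Φ z * E_l` has order at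
`z0` either `⊤` or congruent to `r l` modulo `e`. -/
def OrdHyp (e : ℕ) (ζ : ℂ) (P : Matrix n n ℂ) (Φ : ℂ → Matrix n n ℂ) (z0 : ℂ) (r : ℕ → ℕ) :
    Prop :=
  ∀ l < e, ∀ (c : n → ℂ) (x : n),
    analyticOrderAt (fun z => (c ᵥ* (Φ z * specProj e ζ P l)) x) z0 = ⊤ ∨
    ∃ m : ℕ, analyticOrderAt (fun z => (c ᵥ* (Φ z * specProj e ζ P l)) x) z0 = m ∧ m % e = r l

section gen

variable {e : ℕ} {ζ : ℂ} {P : Matrix n n ℂ} {Φ : ℂ → Matrix n n ℂ} {z0 : ℂ} {r : ℕ → ℕ}

omit [DecidableEq n] in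
/-- Row combinations of a matrix of analytic germs are analytic. -/
theorem analyticAt_vecMul {M : ℂ → Matrix n n ℂ} {z : ℂ}
    (hM : ∀ i x, AnalyticAt ℂ (fun w => M w i x) z) (c : n → ℂ) (x : n) :
    AnalyticAt ℂ (fun w => (c ᵥ* M w) x) z := by
  simp only [Matrix.vecMul, dotProduct]
  exact Finset.analyticAt_fun_sum _ fun i _ => analyticAt_const.mul (hM i x)

/-- Factorisation of the isotypic parts `Φ z * E_l = (z - z0) ^ r_l • H_l z`, `H_l` analytic. -/
theorem exists_isotypic_factor_gen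
    (hΦ : ∀ i x, AnalyticAt ℂ (fun z => Φ z i x) z0) (hord : OrdHyp e ζ P Φ z0 r) :
    ∃ H : ℕ → ℂ → Matrix n n ℂ,
      (∀ l i x, AnalyticAt ℂ (fun z => H l z i x) z0) ∧
      (∀ l < e, ∀ᶠ z in 𝓝 z0, Φ z * specProj e ζ P l = (z - z0) ^ (r l) • H l z) := by
  have hex : ∀ l i x, ∃ h : ℂ → ℂ, AnalyticAt ℂ h z0 ∧
      (l < e → ∀ᶠ z in 𝓝 z0, (Φ z * specProj e ζ P l) i x = (z - z0) ^ (r l) * h z) := by
    intro l i x
    by_cases hl : l < e
    · have han : AnalyticAt ℂ (fun z => (Φ z * specProj e ζ P l) i x) z0 :=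
        analyticAt_mul_const hΦ _ i x
      have hrow : (fun z => (Pi.single i (1 : ℂ) ᵥ* (Φ z * specProj e ζ P l)) x) =
          fun z => (Φ z * specProj e ζ P l) i x := by
        funext z
        rw [Matrix.single_one_vecMul]
        rfl
      have hle : ((r l : ℕ) : ℕ∞) ≤
          analyticOrderAt (fun z => (Φ z * specProj e ζ P l) i x) z0 := by
        have := hord l hl (Pi.single i 1) x
        rw [hrow] at this
        rcases this with h | ⟨m, hm, hmod⟩
        · rw [h]; exact le_top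
        · rw [hm]
          have : r l ≤ m := by rw [← hmod]; exact Nat.mod_le _ _
          exact_mod_cast this
      obtain ⟨h, hh, hgh⟩ := (natCast_le_analyticOrderAt han).mp hle
      refine ⟨h, hh, fun _ => ?_⟩
      filter_upwards [hgh] with z hz
      rw [hz, smul_eq_mul]
    · exact ⟨fun _ => 0, analyticAt_const, fun h => absurd h hl⟩
  choose h hh1 hh2 using hex
  refine ⟨fun l z => Matrix.of fun i x => h l i x z, fun l i x => hh1 l i x, fun l hl => ?_⟩
  have : ∀ᶠ z in 𝓝 z0, ∀ i x,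
      (Φ z * specProj e ζ P l) i x = (z - z0) ^ (r l) * h l i x z := by
    rw [Filter.eventually_all]; intro i
    rw [Filter.eventually_all]; intro x
    exact hh2 l i x hl
  filter_upwards [this] with z hz
  ext i x
  rw [hz, Matrix.smul_apply, Matrix.of_apply, smul_eq_mul]

/-- Global factorisation `Φ z = Ψ z * D (z - z0)`, `Ψ = ∑ l, H l * E_l` analytic,
`D w = ∑ l, w ^ r l • E_l`. -/
theorem exists_factorization_gen (he : e ≠ 0) (hζ : IsPrimitiveRoot ζ e) (hP : P ^ e = 1)
    (hΦ : ∀ i x, AnalyticAt ℂ (fun z => Φ z i x) z0) (hord : OrdHyp e ζ P Φ z0 r) :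
    ∃ H : ℕ → ℂ → Matrix n n ℂ,
      (∀ l i x, AnalyticAt ℂ (fun z => H l z i x) z0) ∧
      (∀ l < e, ∀ᶠ z in 𝓝 z0, Φ z * specProj e ζ P l = (z - z0) ^ (r l) • H l z) ∧
      ∀ᶠ z in 𝓝 z0, Φ z = (∑ l ∈ range e, H l z * specProj e ζ P l) *
        twistMat e r (specProj e ζ P) (z - z0) := by
  obtain ⟨H, hH1, hH2⟩ := exists_isotypic_factor_gen hΦ hord
  refine ⟨H, hH1, hH2, ?_⟩
  have hall : ∀ᶠ z in 𝓝 z0, ∀ l ∈ range e,
      Φ z * specProj e ζ P l = (z - z0) ^ (r l) • H l z := by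
    rw [Filter.eventually_all_finset]
    intro l hl
    exact hH2 l (Finset.mem_range.mp hl)
  filter_upwards [hall] with z hz
  unfold twistMat
  rw [Finset.sum_mul]
  have h1 : ∀ l ∈ range e, H l z * specProj e ζ P l *
      ∑ l' ∈ range e, (z - z0) ^ r l' • specProj e ζ P l' =
      Φ z * specProj e ζ P l := by
    intro l hl
    have hl' := Finset.mem_range.mp hl
    rw [Finset.mul_sum]
    rw [Finset.sum_eq_single l]
    · rw [Matrix.mul_smul, Matrix.mul_assoc, specProj_idem he hζ hP hl', ← Matrix.smul_mul,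
        ← hz l hl, Matrix.mul_assoc, specProj_idem he hζ hP hl']
    · intro l' hl'' hne
      rw [Matrix.mul_smul, Matrix.mul_assoc,
        specProj_mul_of_ne he hζ hP (Finset.mem_range.mp hl'') hl' hne.symm, Matrix.mul_zero,
        smul_zero]
    · intro h; exact absurd hl h
  rw [Finset.sum_congr rfl h1, ← Finset.mul_sum, sum_specProj he hζ, Matrix.mul_one]

/-- `det Φ z = det Ψ z * (z - z0) ^ d` near `z0`, `Ψ` analytic. -/
theorem exists_det_factorization_gen (he : e ≠ 0) (hζ : IsPrimitiveRoot ζ e) (hP : P ^ e = 1)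
    (hΦ : ∀ i x, AnalyticAt ℂ (fun z => Φ z i x) z0) (hord : OrdHyp e ζ P Φ z0 r)
    (m : ℕ → ℕ) (hm : ∀ l < e, (m l : ℂ) = trace (specProj e ζ P l)) :
    ∃ H : ℕ → ℂ → Matrix n n ℂ,
      (∀ l i x, AnalyticAt ℂ (fun z => H l z i x) z0) ∧
      (∀ l < e, ∀ᶠ z in 𝓝 z0, Φ z * specProj e ζ P l = (z - z0) ^ (r l) • H l z) ∧
      ∀ᶠ z in 𝓝 z0, (Φ z).det = (∑ l ∈ range e, H l z * specProj e ζ P l).det *
        (z - z0) ^ (∑ l ∈ range e, r l * m l) := by
  obtain ⟨H, hH1, hH2, hH4⟩ := exists_factorization_gen he hζ hP hΦ hord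
  obtain ⟨m', hm', hdet⟩ := det_twistMat (specProj e ζ P) e
    (fun l hl => specProj_idem he hζ hP hl)
    (fun l hl l' hl' hne => specProj_mul_of_ne he hζ hP hl' hl hne)
    (sum_specProj he hζ P) r
  have hmm : ∑ l ∈ range e, r l * m' l = ∑ l ∈ range e, r l * m l := by
    refine Finset.sum_congr rfl fun l hl => ?_
    have hl' := Finset.mem_range.mp hl
    have : m' l = m l := Nat.cast_injective (R := ℂ) ((hm' l hl').trans (hm l hl').symm)
    rw [this]
  refine ⟨H, hH1, hH2, ?_⟩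
  filter_upwards [hH4] with z hz
  rw [← hmm, ← hdet (z - z0), ← det_mul, ← hz]

/-- **Order of the determinant** (abstract form): `ord_{z0} det Φ ≥ ∑ l, r l * m l`. -/
theorem le_analyticOrderAt_det_gen (he : e ≠ 0) (hζ : IsPrimitiveRoot ζ e) (hP : P ^ e = 1)
    (hΦ : ∀ i x, AnalyticAt ℂ (fun z => Φ z i x) z0) (hord : OrdHyp e ζ P Φ z0 r)
    (m : ℕ → ℕ) (hm : ∀ l < e, (m l : ℂ) = trace (specProj e ζ P l)) :
    ((∑ l ∈ range e, r l * m l : ℕ) : ℕ∞) ≤ analyticOrderAt (fun z => (Φ z).det) z0 := by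
  obtain ⟨H, hH1, -, hdet⟩ := exists_det_factorization_gen he hζ hP hΦ hord m hm
  have hΨ : AnalyticAt ℂ (fun z => (∑ l ∈ range e, H l z * specProj e ζ P l).det) z0 := by
    refine analyticAt_det fun i x => ?_
    simp only [Matrix.sum_apply]
    exact Finset.analyticAt_fun_sum _ fun l _ => analyticAt_mul_const (hH1 l) _ i x
  rw [natCast_le_analyticOrderAt (analyticAt_det hΦ)]
  refine ⟨_, hΨ, ?_⟩
  filter_upwards [hdet] with z hz
  rw [hz, smul_eq_mul, mul_comm]

/-- The order of `(z - z0) ^ d` at `z0`. -/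
theorem analyticOrderAt_sub_pow (z0 : ℂ) (d : ℕ) :
    analyticOrderAt (fun z : ℂ => (z - z0) ^ d) z0 = d := by
  have han : AnalyticAt ℂ (fun z : ℂ => (z - z0) ^ d) z0 :=
    (analyticAt_id.sub analyticAt_const).pow d
  rw [han.analyticOrderAt_eq_natCast]
  exact ⟨fun _ => 1, analyticAt_const, one_ne_zero, Filter.Eventually.of_forall fun z => by simp⟩

/-- **Saturation alternative** (abstract form): if the order of `det Φ` at `z0` is strictly
larger than `∑ l, r l * m l`, a nonzero constant combination of the rows vanishes to order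
`≥ e` at `z0` in every column. -/
theorem exists_vanishing_combination_gen (he : e ≠ 0) (hζ : IsPrimitiveRoot ζ e)
    (hP : P ^ e = 1) (hΦ : ∀ i x, AnalyticAt ℂ (fun z => Φ z i x) z0)
    (hord : OrdHyp e ζ P Φ z0 r) (hr : ∀ l < e, r l < e)
    (m : ℕ → ℕ) (hm : ∀ l < e, (m l : ℂ) = trace (specProj e ζ P l))
    (hlt : ((∑ l ∈ range e, r l * m l : ℕ) : ℕ∞) < analyticOrderAt (fun z => (Φ z).det) z0) :
    ∃ c : n → ℂ, c ≠ 0 ∧ ∀ x, (e : ℕ∞) ≤ analyticOrderAt (fun z => ∑ i, c i * Φ z i x) z0 := by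
  obtain ⟨H, hH1, hH2, hdet⟩ := exists_det_factorization_gen he hζ hP hΦ hord m hm
  set d := ∑ l ∈ range e, r l * m l with hd
  set Ψ : ℂ → Matrix n n ℂ := fun z => ∑ l ∈ range e, H l z * specProj e ζ P l with hΨdef
  have hΨe : ∀ i x, AnalyticAt ℂ (fun z => Ψ z i x) z0 := by
    intro i x
    simp only [hΨdef, Matrix.sum_apply]
    exact Finset.analyticAt_fun_sum _ fun l _ => analyticAt_mul_const (hH1 l) _ i x
  have hΨ : AnalyticAt ℂ (fun z => (Ψ z).det) z0 := analyticAt_det hΨe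
  -- det Ψ z0 = 0
  have hΨ0 : (Ψ z0).det = 0 := by
    by_contra hne
    have h0 : analyticOrderAt (fun z => (Ψ z).det) z0 = 0 := hΨ.analyticOrderAt_eq_zero.mpr hne
    have hcongr : analyticOrderAt (fun z => (Φ z).det) z0 =
        analyticOrderAt (fun z => (Ψ z).det * (z - z0) ^ d) z0 := analyticOrderAt_congr hdet
    have hmul : analyticOrderAt (fun z => (Ψ z).det * (z - z0) ^ d) z0 = d := by
      have hpowan : AnalyticAt ℂ (fun z : ℂ => (z - z0) ^ d) z0 :=
        (analyticAt_id.sub analyticAt_const).pow d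
      have h3 := analyticOrderAt_mul (𝕜 := ℂ) (z₀ := z0) hΨ hpowan
      rw [show (fun z => (Ψ z).det * (z - z0) ^ d) =
          (fun z => (Ψ z).det) * (fun z : ℂ => (z - z0) ^ d) from rfl, h3, h0, zero_add]
      exact analyticOrderAt_sub_pow z0 d
    rw [hcongr, hmul] at hlt
    exact lt_irrefl _ hlt
  obtain ⟨c, hc0, hc⟩ := Matrix.exists_vecMul_eq_zero_iff.mpr hΨ0
  refine ⟨c, hc0, fun x => ?_⟩
  -- the isotypic components of `c ᵥ* Ψ z0` vanish
  have hcomp : ∀ l ∈ range e, c ᵥ* (H l z0 * specProj e ζ P l) = 0 := by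
    intro l hl
    have hl' := Finset.mem_range.mp hl
    have h1 : c ᵥ* (Ψ z0 * specProj e ζ P l) = c ᵥ* (H l z0 * specProj e ζ P l) := by
      congr 1
      simp only [hΨdef]
      rw [Finset.sum_mul, Finset.sum_eq_single l]
      · rw [Matrix.mul_assoc, specProj_idem he hζ hP hl']
      · intro l' hl'' hne
        rw [Matrix.mul_assoc, specProj_mul_of_ne he hζ hP hl' (Finset.mem_range.mp hl'') hne,
          Matrix.mul_zero]
      · intro h; exact absurd hl h
    rw [← h1, ← Matrix.vecMul_vecMul, hc, Matrix.zero_vecMul]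
  -- each isotypic component of `c ᵥ* Φ z` vanishes to order ≥ e
  have hk : ∀ l ∈ range e, ∃ g : ℂ → ℂ, AnalyticAt ℂ g z0 ∧
      ∀ᶠ z in 𝓝 z0, (c ᵥ* (Φ z * specProj e ζ P l)) x = (z - z0) ^ e * g z := by
    intro l hl
    have hl' := Finset.mem_range.mp hl
    have hanΦ : AnalyticAt ℂ (fun z => (c ᵥ* (Φ z * specProj e ζ P l)) x) z0 :=
      analyticAt_vecMul (fun i y => analyticAt_mul_const hΦ _ i y) c x
    have hanq : AnalyticAt ℂ (fun z => (c ᵥ* (H l z * specProj e ζ P l)) x) z0 :=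
      analyticAt_vecMul (fun i y => analyticAt_mul_const (hH1 l) _ i y) c x
    have hq0 : (c ᵥ* (H l z0 * specProj e ζ P l)) x = 0 := by
      rw [hcomp l hl]; rfl
    -- q = (z - z0) * q1
    have hqle : ((1 : ℕ) : ℕ∞) ≤
        analyticOrderAt (fun z => (c ᵥ* (H l z * specProj e ζ P l)) x) z0 := by
      have hne : analyticOrderAt (fun z => (c ᵥ* (H l z * specProj e ζ P l)) x) z0 ≠ 0 := by
        rw [Ne, hanq.analyticOrderAt_eq_zero, not_not]
        exact hq0
      rw [Nat.cast_one]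
      exact Order.one_le_iff_ne_zero.mpr hne
    obtain ⟨q1, hq1, hq1'⟩ := (natCast_le_analyticOrderAt hanq).mp hqle
    -- order of the component is at least r l + 1
    have hle1 : ((r l + 1 : ℕ) : ℕ∞) ≤
        analyticOrderAt (fun z => (c ᵥ* (Φ z * specProj e ζ P l)) x) z0 := by
      rw [natCast_le_analyticOrderAt hanΦ]
      refine ⟨q1, hq1, ?_⟩
      filter_upwards [hH2 l hl', hq1'] with z hz1 hz2
      have : Φ z * specProj e ζ P l = (z - z0) ^ r l • (H l z * specProj e ζ P l) := by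
        rw [← Matrix.smul_mul, ← hz1, Matrix.mul_assoc, specProj_idem he hζ hP hl']
      rw [this, Matrix.vecMul_smul, Pi.smul_apply, hz2]
      simp only [smul_eq_mul, pow_one]
      ring
    have hle : ((e : ℕ) : ℕ∞) ≤
        analyticOrderAt (fun z => (c ᵥ* (Φ z * specProj e ζ P l)) x) z0 := by
      rcases hord l hl' c x with h | ⟨m', hm', hmod⟩
      · rw [h]; exact le_top
      · rw [hm'] at hle1 ⊢
        have h1 : r l + 1 ≤ m' := by exact_mod_cast hle1
        have h2 := Nat.div_add_mod m' e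
        have h3 : r l < e := hr l hl'
        have h4 : e ≤ m' := by
          rcases Nat.eq_zero_or_pos (m' / e) with h5 | h5
          · rw [h5, mul_zero, zero_add] at h2
            omega
          · have : e * 1 ≤ e * (m' / e) := Nat.mul_le_mul_left e h5
            omega
        exact_mod_cast h4
    obtain ⟨g, hg, hg'⟩ := (natCast_le_analyticOrderAt hanΦ).mp hle
    refine ⟨g, hg, ?_⟩
    filter_upwards [hg'] with z hz
    rw [hz, smul_eq_mul]
  choose! g hg1 hg2 using hk
  have hsumform : ∀ᶠ z in 𝓝 z0, ∑ i, c i * Φ z i x =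
      (z - z0) ^ e * ∑ l ∈ range e, g l z := by
    have hall3 : ∀ᶠ z in 𝓝 z0, ∀ l ∈ range e,
        (c ᵥ* (Φ z * specProj e ζ P l)) x = (z - z0) ^ e * g l z := by
      rw [Filter.eventually_all_finset]
      intro l hl
      exact hg2 l hl
    filter_upwards [hall3] with z hz3
    have hΦz : (c ᵥ* Φ z) x = ∑ l ∈ range e, (c ᵥ* (Φ z * specProj e ζ P l)) x := by
      rw [← Finset.sum_apply, ← Matrix.vecMul_sum, ← Finset.mul_sum, sum_specProj he hζ,
        Matrix.mul_one]
    have h1 : ∑ i, c i * Φ z i x = (c ᵥ* Φ z) x := by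
      simp only [Matrix.vecMul, dotProduct]
    rw [h1, hΦz, Finset.mul_sum]
    exact Finset.sum_congr rfl fun l hl => hz3 l hl
  have hanal : AnalyticAt ℂ (fun z => ∑ i, c i * Φ z i x) z0 :=
    Finset.analyticAt_fun_sum _ fun i _ => analyticAt_const.mul (hΦ i x)
  rw [natCast_le_analyticOrderAt hanal]
  refine ⟨fun z => ∑ l ∈ range e, g l z, ?_, ?_⟩
  · exact Finset.analyticAt_fun_sum _ fun l hl => hg1 l hl
  · filter_upwards [hsumform] with z hz
    rw [hz, smul_eq_mul]

end gen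

end Fermat.Agent.S20_helper90
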