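import Mathlib

set_option autoImplicit false

/-!
Analytic germs at `z0` with a symmetry `g (sig z) = u z * g z`, where `sig` is an analytic germ
fixing `z0` with multiplier `deriv sig z0 = ζ`: the order of `g` at `z0` satisfies
`ζ ^ ord = u z0`.
-/

namespace Fermat.Agent.S20_helper90

open Filter Topology

/-- If `(z - z0) ^ r * F z = 0` near `z0` for an analytic germ `F`, then `F = 0` near `z0`. -/
theorem eventually_eq_zero_of_sub_pow_mul {F : ℂ → ℂ} {z0 : ℂ} (hF : AnalyticAt ℂ F z0) (r : ℕ)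
    (h : ∀ᶠ z in 𝓝 z0, (z - z0) ^ r * F z = 0) : ∀ᶠ z in 𝓝 z0, F z = 0 := by
  rcases hF.eventually_eq_zero_or_eventually_ne_zero with h0 | hne
  · exact h0
  · exfalso
    have h' : ∀ᶠ z in 𝓝[≠] z0, (z - z0) ^ r * F z = 0 := h.filter_mono nhdsWithin_le_nhds
    have hmem : ∀ᶠ z in 𝓝[≠] z0, z ≠ z0 := eventually_mem_nhdsWithin
    have hfalse : ∀ᶠ z in 𝓝[≠] z0, False := by
      filter_upwards [h', hne, hmem] with z h1 h2 h3
      rcases mul_eq_zero.mp h1 with h4 | h4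
      · exact h3 (sub_eq_zero.mp (eq_zero_of_pow_eq_zero h4))
      · exact h2 h4
    have hne : NeBot (𝓝[≠] z0) := NormedField.nhdsNE_neBot z0
    exact hne.ne (eventually_false_iff_eq_bot.mp hfalse)

/-- An analytic germ fixing `z0` is `z0 + (z - z0) * k z` with `k z0` the derivative. -/
theorem exists_linear_factor {sig : ℂ → ℂ} {z0 : ℂ} (hsig : AnalyticAt ℂ sig z0)
    (hsig0 : sig z0 = z0) :
    ∃ k : ℂ → ℂ, AnalyticAt ℂ k z0 ∧ k z0 = deriv sig z0 ∧
      ∀ᶠ z in 𝓝 z0, sig z - z0 = (z - z0) * k z := by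
  have han : AnalyticAt ℂ (fun z => sig z - z0) z0 := hsig.sub analyticAt_const
  have hle : ((1 : ℕ) : ℕ∞) ≤ analyticOrderAt (fun z => sig z - z0) z0 := by
    have hne : analyticOrderAt (fun z => sig z - z0) z0 ≠ 0 := by
      rw [Ne, han.analyticOrderAt_eq_zero, not_not, hsig0, sub_self]
    rw [Nat.cast_one]
    exact Order.one_le_iff_ne_zero.mpr hne
  obtain ⟨k, hk, hk'⟩ := (natCast_le_analyticOrderAt han).mp hle
  simp only [pow_one, smul_eq_mul] at hk'
  refine ⟨k, hk, ?_, hk'⟩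
  have h1 : HasDerivAt (fun z => (z - z0) * k z) (1 * k z0 + (z0 - z0) * deriv k z0) z0 :=
    ((hasDerivAt_id z0).sub_const z0).mul hk.differentiableAt.hasDerivAt
  have h2 : HasDerivAt (fun z => sig z - z0) (deriv sig z0) z0 :=
    hsig.differentiableAt.hasDerivAt.sub_const z0
  have h3 : HasDerivAt (fun z => sig z - z0) (1 * k z0 + (z0 - z0) * deriv k z0) z0 :=
    h1.congr_of_eventuallyEq hk'
  have := h2.unique h3
  rw [this]
  ring

/-- **Leading coefficient comparison**: if `g (sig z) = u z * g z` near `z0` and `g` has finite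
order `n` at `z0`, then `(deriv sig z0) ^ n = u z0`. -/
theorem pow_eq_of_germ_symmetry {z0 : ℂ} {sig u g : ℂ → ℂ}
    (hsig : AnalyticAt ℂ sig z0) (hsig0 : sig z0 = z0)
    (hu : AnalyticAt ℂ u z0) (hg : AnalyticAt ℂ g z0)
    (hsym : ∀ᶠ z in 𝓝 z0, g (sig z) = u z * g z) {n : ℕ} (hn : analyticOrderAt g z0 = n) :
    deriv sig z0 ^ n = u z0 := by
  obtain ⟨h, hh, hh0, hgh⟩ := (hg.analyticOrderAt_eq_natCast).mp hn
  simp only [smul_eq_mul] at hgh
  obtain ⟨k, hk, hk0, hsk⟩ := exists_linear_factor hsig hsig0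
  have htend : Tendsto sig (𝓝 z0) (𝓝 z0) := by
    have := hsig.continuousAt.tendsto
    rwa [hsig0] at this
  have hgh' : ∀ᶠ z in 𝓝 z0, g (sig z) = (sig z - z0) ^ n * h (sig z) := htend.eventually hgh
  have hhsig : AnalyticAt ℂ (fun z => h (sig z)) z0 := by
    have h2 : AnalyticAt ℂ h (sig z0) := by rw [hsig0]; exact hh
    exact h2.comp hsig
  set F : ℂ → ℂ := fun z => k z ^ n * h (sig z) - u z * h z with hFdef
  have hF : AnalyticAt ℂ F z0 := ((hk.pow n).mul hhsig).sub (hu.mul hh)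
  have hF0 : ∀ᶠ z in 𝓝 z0, (z - z0) ^ n * F z = 0 := by
    filter_upwards [hsym, hgh, hgh', hsk] with z h1 h2 h3 h4
    rw [h3, h2, h4, mul_pow] at h1
    simp only [hFdef]
    linear_combination h1
  have hF00 : F z0 = 0 := (eventually_eq_zero_of_sub_pow_mul hF n hF0).self_of_nhds
  simp only [hFdef, hsig0, hk0] at hF00
  have : (deriv sig z0 ^ n - u z0) * h z0 = 0 := by linear_combination hF00
  rcases mul_eq_zero.mp this with h1 | h1
  · exact sub_eq_zero.mp h1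
  · exact absurd h1 hh0

/-- The order at `z0` of a germ with `g (sig z) = u z * g z`, `deriv sig z0 = ζ` a primitive
`e`-th root of unity and `u z0 = ζ ^ t`, is `⊤` or congruent to `t` mod `e`. -/
theorem analyticOrderAt_mod_of_germ {e : ℕ} (he : e ≠ 0) {ζ : ℂ} (hζ : IsPrimitiveRoot ζ e)
    {z0 : ℂ} {sig u g : ℂ → ℂ} (hsig : AnalyticAt ℂ sig z0) (hsig0 : sig z0 = z0)
    (hsig1 : deriv sig z0 = ζ) (hu : AnalyticAt ℂ u z0) {t : ℕ} (hu0 : u z0 = ζ ^ t)
    (hg : AnalyticAt ℂ g z0) (hsym : ∀ᶠ z in 𝓝 z0, g (sig z) = u z * g z) :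
    analyticOrderAt g z0 = ⊤ ∨ ∃ m : ℕ, analyticOrderAt g z0 = m ∧ m % e = t % e := by
  by_cases htop : analyticOrderAt g z0 = ⊤
  · exact Or.inl htop
  right
  obtain ⟨m, hm⟩ := ENat.ne_top_iff_exists.mp htop
  refine ⟨m, hm.symm, ?_⟩
  have hpow : ζ ^ m = ζ ^ t := by
    rw [← hu0, ← hsig1]
    exact pow_eq_of_germ_symmetry hsig hsig0 hu hg hsym hm.symm
  have hord : orderOf ζ = e := hζ.eq_orderOf.symm
  have h1 : ζ ^ (m % e) = ζ ^ (t % e) := by
    rw [← hord, pow_mod_orderOf, pow_mod_orderOf, hpow]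
  exact hζ.pow_inj (Nat.mod_lt _ (Nat.pos_of_ne_zero he)) (Nat.mod_lt _ (Nat.pos_of_ne_zero he)) h1

end Fermat.Agent.S20_helper90
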