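import Fermat.Agent.S20_helper90.DetOrderGen
import Fermat.Agent.S20_helper90.GermOrder

set_option autoImplicit false

/-!
The local determinant lemma in germ form: `Φ (sig z) = u z • (Φ z * P)` near `z0`, where `sig`
is an analytic germ fixing `z0` with multiplier `ζ` (a primitive `e`-th root of unity) and
`u z0 = ζ ^ s`.  Matrix form for general `e`, then the permutation form for prime `e` with the
forced order expressed through the number of fixed points.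
-/

namespace Fermat.Agent.S20_helper90

open Matrix Finset Filter Topology

section germ

variable {n : Type*} [Fintype n] [DecidableEq n]
variable {e : ℕ} {ζ : ℂ} {P : Matrix n n ℂ} {s : ℕ} {Φ : ℂ → Matrix n n ℂ} {z0 : ℂ}
  {sig u : ℂ → ℂ}

/-- The germ symmetry implies the abstract order hypothesis with `r l = (s + l) % e`. -/
theorem ordHyp_of_germ (he : e ≠ 0) (hζ : IsPrimitiveRoot ζ e) (hP : P ^ e = 1)
    (hsig : AnalyticAt ℂ sig z0) (hsig0 : sig z0 = z0) (hsig1 : deriv sig z0 = ζ)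
    (hu : AnalyticAt ℂ u z0) (hu0 : u z0 = ζ ^ s)
    (hΦ : ∀ i x, AnalyticAt ℂ (fun z => Φ z i x) z0)
    (hsym : ∀ᶠ z in 𝓝 z0, Φ (sig z) = u z • (Φ z * P)) :
    OrdHyp e ζ P Φ z0 (rotExp e s) := by
  intro l hl c x
  have han : AnalyticAt ℂ (fun z => (c ᵥ* (Φ z * specProj e ζ P l)) x) z0 :=
    analyticAt_vecMul (fun i y => analyticAt_mul_const hΦ _ i y) c x
  have hsym' : ∀ᶠ z in 𝓝 z0, (fun z => (c ᵥ* (Φ z * specProj e ζ P l)) x) (sig z) =
      (fun z => ζ ^ l * u z) z * (fun z => (c ᵥ* (Φ z * specProj e ζ P l)) x) z := by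
    filter_upwards [hsym] with z hz
    rw [hz, Matrix.smul_mul, Matrix.mul_assoc, mul_specProj he hζ hP, Matrix.mul_smul, smul_smul,
      Matrix.vecMul_smul, Pi.smul_apply, smul_eq_mul, mul_comm (u z)]
  have hu' : AnalyticAt ℂ (fun z => ζ ^ l * u z) z0 := analyticAt_const.mul hu
  have hu0' : (fun z => ζ ^ l * u z) z0 = ζ ^ (s + l) := by
    simp only [hu0, pow_add, mul_comm]
  rcases analyticOrderAt_mod_of_germ he hζ hsig hsig0 hsig1 hu' hu0' han hsym' with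
    h | ⟨m, hm, hmod⟩
  · exact Or.inl h
  · exact Or.inr ⟨m, hm, hmod⟩

/-- **(L1), matrix germ form, general `e`.** -/
theorem germ_le_analyticOrderAt_det_gen (he : e ≠ 0) (hζ : IsPrimitiveRoot ζ e) (hP : P ^ e = 1)
    (hsig : AnalyticAt ℂ sig z0) (hsig0 : sig z0 = z0) (hsig1 : deriv sig z0 = ζ)
    (hu : AnalyticAt ℂ u z0) (hu0 : u z0 = ζ ^ s)
    (hΦ : ∀ i x, AnalyticAt ℂ (fun z => Φ z i x) z0)
    (hsym : ∀ᶠ z in 𝓝 z0, Φ (sig z) = u z • (Φ z * P))
    (m : ℕ → ℕ) (hm : ∀ l < e, (m l : ℂ) = trace (specProj e ζ P l)) :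
    ((∑ l ∈ range e, rotExp e s l * m l : ℕ) : ℕ∞) ≤ analyticOrderAt (fun z => (Φ z).det) z0 :=
  le_analyticOrderAt_det_gen he hζ hP hΦ
    (ordHyp_of_germ he hζ hP hsig hsig0 hsig1 hu hu0 hΦ hsym) m hm

/-- **(L2), matrix germ form, general `e`.** -/
theorem germ_exists_vanishing_combination_gen (he : e ≠ 0) (hζ : IsPrimitiveRoot ζ e)
    (hP : P ^ e = 1)
    (hsig : AnalyticAt ℂ sig z0) (hsig0 : sig z0 = z0) (hsig1 : deriv sig z0 = ζ)
    (hu : AnalyticAt ℂ u z0) (hu0 : u z0 = ζ ^ s)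
    (hΦ : ∀ i x, AnalyticAt ℂ (fun z => Φ z i x) z0)
    (hsym : ∀ᶠ z in 𝓝 z0, Φ (sig z) = u z • (Φ z * P))
    (m : ℕ → ℕ) (hm : ∀ l < e, (m l : ℂ) = trace (specProj e ζ P l))
    (hlt : ((∑ l ∈ range e, rotExp e s l * m l : ℕ) : ℕ∞) <
      analyticOrderAt (fun z => (Φ z).det) z0) :
    ∃ c : n → ℂ, c ≠ 0 ∧ ∀ x, (e : ℕ∞) ≤ analyticOrderAt (fun z => ∑ i, c i * Φ z i x) z0 :=
  exists_vanishing_combination_gen he hζ hP hΦ
    (ordHyp_of_germ he hζ hP hsig hsig0 hsig1 hu hu0 hΦ hsym)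
    (fun _ _ => Nat.mod_lt _ (Nat.pos_of_ne_zero he)) m hm hlt

end germ

end Fermat.Agent.S20_helper90
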