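import Mathlib

set_option autoImplicit false

/-!
Spectral projections of a matrix of finite order, and the determinant of
`∑ l, w ^ r l • E l` for a complete family of orthogonal idempotents.
-/

namespace Fermat.Agent.S20_helper90

open Matrix Finset Polynomial

variable {n : Type*} [Fintype n] [DecidableEq n]
variable {K : Type*} [Field K]

/-- The `l`-th spectral projection of a matrix `P` with `P ^ e = 1`. -/
noncomputable def specProj (e : ℕ) (ζ : K) (P : Matrix n n K) (l : ℕ) : Matrix n n K :=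
  (e : K)⁻¹ • ∑ a ∈ range e, (ζ⁻¹) ^ (l * a) • P ^ a

theorem sum_pow_eq_zero_of_ne_one {e : ℕ} {x : K} (hx : x ^ e = 1) (hx1 : x ≠ 1) :
    ∑ a ∈ range e, x ^ a = 0 := by
  have h := mul_geom_sum x e
  rw [hx, sub_self] at h
  exact (mul_eq_zero.mp h).resolve_left (sub_ne_zero.mpr hx1)

theorem sum_range_shift {M : Type*} [AddCommGroup M] (f : ℕ → M) (e : ℕ) (h : f e = f 0) :
    ∑ a ∈ range e, f (a + 1) = ∑ a ∈ range e, f a := by
  have h1 := Finset.sum_range_succ' f e
  have h2 := Finset.sum_range_succ f e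
  rw [h1, h] at h2
  exact add_right_cancel h2

section basic

variable {e : ℕ} {ζ : K} {P : Matrix n n K}

theorem mul_specProj (he : e ≠ 0) (hζ : IsPrimitiveRoot ζ e) (hP : P ^ e = 1) (l : ℕ) :
    P * specProj e ζ P l = ζ ^ l • specProj e ζ P l := by
  have hζ0 : ζ ≠ 0 := hζ.ne_zero he
  have hc : (ζ⁻¹) ^ e = 1 := by rw [inv_pow, hζ.pow_eq_one, inv_one]
  set f : ℕ → Matrix n n K := fun a => (ζ⁻¹) ^ (l * a) • P ^ a with hf
  have hfe : f e = f 0 := by
    simp only [hf, mul_zero, pow_zero, one_smul, hP]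
    rw [mul_comm, pow_mul, hc, one_pow, one_smul]
  have hstep : ∀ a, (ζ⁻¹) ^ (l * a) • P ^ (a + 1) = ζ ^ l • f (a + 1) := by
    intro a
    simp only [hf]
    rw [smul_smul]
    congr 1
    rw [mul_add, mul_one, pow_add, ← mul_assoc, mul_comm (ζ ^ l), mul_assoc, inv_pow ζ l,
      mul_inv_cancel₀ (pow_ne_zero _ hζ0), mul_one]
  unfold specProj
  rw [Matrix.mul_smul, Matrix.mul_sum, smul_comm (ζ ^ l)]
  congr 1
  rw [← sum_range_shift f e hfe, Finset.smul_sum]
  refine Finset.sum_congr rfl fun a _ => ?_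
  rw [Matrix.mul_smul, ← pow_succ', hstep]

theorem pow_mul_specProj (he : e ≠ 0) (hζ : IsPrimitiveRoot ζ e) (hP : P ^ e = 1) (l a : ℕ) :
    P ^ a * specProj e ζ P l = ζ ^ (l * a) • specProj e ζ P l := by
  induction a with
  | zero => simp
  | succ a ih =>
    rw [pow_succ, Matrix.mul_assoc, mul_specProj he hζ hP, Matrix.mul_smul, ih, smul_smul,
      mul_add, mul_one, pow_add, mul_comm]

theorem specProj_mul_specProj (he : e ≠ 0) (hζ : IsPrimitiveRoot ζ e) (hP : P ^ e = 1)
    {l l' : ℕ} (hl : l < e) (hl' : l' < e) :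
    specProj e ζ P l' * specProj e ζ P l = if l' = l then specProj e ζ P l else 0 := by
  have hζ0 : ζ ≠ 0 := hζ.ne_zero he
  have heK : (e : K) ≠ 0 := by
    have : NeZero e := ⟨he⟩
    exact (hζ.neZero').out
  have key : specProj e ζ P l' * specProj e ζ P l =
      ((e : K)⁻¹ * ∑ a ∈ range e, ((ζ⁻¹) ^ l' * ζ ^ l) ^ a) • specProj e ζ P l := by
    conv_lhs => rw [specProj]
    rw [Matrix.smul_mul, Finset.sum_mul, mul_smul, Finset.sum_smul]
    congr 1
    refine Finset.sum_congr rfl fun a _ => ?_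
    rw [Matrix.smul_mul, pow_mul_specProj he hζ hP, smul_smul, mul_pow, ← pow_mul, ← pow_mul]
  rw [key]
  split_ifs with h
  · subst h
    have : (ζ⁻¹) ^ l' * ζ ^ l' = 1 := by
      rw [inv_pow, inv_mul_cancel₀ (pow_ne_zero _ hζ0)]
    simp only [this, one_pow, sum_const, card_range, nsmul_eq_mul, mul_one]
    rw [inv_mul_cancel₀ heK, one_smul]
  · have hx1 : (ζ⁻¹) ^ l' * ζ ^ l ≠ 1 := by
      intro hx
      apply h
      have : ζ ^ l = ζ ^ l' := by
        rw [inv_pow] at hx
        have := congrArg (fun t => ζ ^ l' * t) hx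
        simp only [← mul_assoc, mul_inv_cancel₀ (pow_ne_zero l' hζ0), one_mul, mul_one] at this
        exact this
      exact (hζ.pow_inj hl hl' this).symm
    have hxe : ((ζ⁻¹) ^ l' * ζ ^ l) ^ e = 1 := by
      rw [mul_pow, ← pow_mul, ← pow_mul, mul_comm l', mul_comm l, pow_mul, pow_mul, inv_pow,
        hζ.pow_eq_one, inv_one, one_pow, one_pow, one_mul]
    rw [sum_pow_eq_zero_of_ne_one hxe hx1, mul_zero, zero_smul]

theorem specProj_idem (he : e ≠ 0) (hζ : IsPrimitiveRoot ζ e) (hP : P ^ e = 1)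
    {l : ℕ} (hl : l < e) : specProj e ζ P l * specProj e ζ P l = specProj e ζ P l := by
  rw [specProj_mul_specProj he hζ hP hl hl, if_pos rfl]

theorem specProj_mul_of_ne (he : e ≠ 0) (hζ : IsPrimitiveRoot ζ e) (hP : P ^ e = 1)
    {l l' : ℕ} (hl : l < e) (hl' : l' < e) (h : l' ≠ l) :
    specProj e ζ P l' * specProj e ζ P l = 0 := by
  rw [specProj_mul_specProj he hζ hP hl hl', if_neg h]

theorem sum_specProj (he : e ≠ 0) (hζ : IsPrimitiveRoot ζ e) (P : Matrix n n K) :
    ∑ l ∈ range e, specProj e ζ P l = 1 := by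
  have heK : (e : K) ≠ 0 := by
    have : NeZero e := ⟨he⟩
    exact (hζ.neZero').out
  have hζinv : IsPrimitiveRoot ζ⁻¹ e := IsPrimitiveRoot.inv_iff.mpr hζ
  unfold specProj
  rw [← Finset.smul_sum, Finset.sum_comm]
  have : ∀ a ∈ range e, ∑ l ∈ range e, (ζ⁻¹) ^ (l * a) • P ^ a =
      if a = 0 then (e : K) • (1 : Matrix n n K) else 0 := by
    intro a ha
    rw [← Finset.sum_smul]
    split_ifs with h0
    · subst h0
      simp
    · have hx1 : (ζ⁻¹) ^ a ≠ 1 := hζinv.pow_ne_one_of_pos_of_lt h0 (Finset.mem_range.mp ha)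
      have hxe : ((ζ⁻¹) ^ a) ^ e = 1 := by
        rw [← pow_mul, mul_comm, pow_mul, hζinv.pow_eq_one, one_pow]
      have : ∑ l ∈ range e, (ζ⁻¹) ^ (l * a) = 0 := by
        have := sum_pow_eq_zero_of_ne_one hxe hx1
        simpa [← pow_mul, mul_comm] using this
      rw [this, zero_smul]
  rw [Finset.sum_congr rfl this, Finset.sum_ite_eq' (range e) 0]
  rw [if_pos (Finset.mem_range.mpr (Nat.pos_of_ne_zero he)), smul_smul, inv_mul_cancel₀ heK,
    one_smul]

theorem trace_specProj (e : ℕ) (ζ : K) (P : Matrix n n K) (l : ℕ) :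
    trace (specProj e ζ P l) = (e : K)⁻¹ * ∑ a ∈ range e, (ζ⁻¹) ^ (l * a) * trace (P ^ a) := by
  unfold specProj
  rw [trace_smul, trace_sum, smul_eq_mul]
  congr 1
  refine Finset.sum_congr rfl fun a _ => ?_
  rw [trace_smul, smul_eq_mul]

end basic

/-- For an idempotent matrix `E`, `det (1 + (u - 1) • E) = u ^ m` where `m = trace E`. -/
theorem det_one_add_smul_idem (E : Matrix n n K) (hE : E * E = E) :
    ∃ m : ℕ, (m : K) = trace E ∧ ∀ u : K, det (1 + (u - 1) • E) = u ^ m := by
  classical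
  set G : K[X] := det (1 + (X : K[X]) • E.map C) with hG
  set G' : K[X] := det (1 + (X : K[X]) • (1 - E).map C) with hG'
  have hEC : E.map C * E.map (C : K →+* K[X]) = E.map C := by
    rw [← Matrix.map_mul, hE]
  have hprod : (1 + (X : K[X]) • E.map C) * (1 + (X : K[X]) • (1 - E).map C)
      = ((1 : K[X]) + X) • (1 : Matrix n n K[X]) := by
    have h1 : (1 - E).map (C : K →+* K[X]) = 1 - E.map C := by
      rw [Matrix.map_sub, Matrix.map_one] <;> simp
    have hA : E.map (C : K →+* K[X]) * (1 - E.map C) = 0 := by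
      rw [Matrix.mul_sub, Matrix.mul_one, hEC, sub_self]
    rw [h1, Matrix.add_mul, Matrix.one_mul, Matrix.mul_add, Matrix.mul_one, Matrix.smul_mul,
      Matrix.mul_smul, hA, smul_zero, smul_zero, add_zero, add_smul, one_smul, add_assoc,
      ← smul_add, sub_add_cancel]
  have hGG : G * G' = (1 + X) ^ Fintype.card n := by
    rw [hG, hG', ← det_mul, hprod, det_smul, det_one, mul_one]
  have hprime : Prime ((1 : K[X]) + X) := by
    have := Polynomial.prime_X_sub_C (-1 : K)
    simpa [sub_eq_add_neg, add_comm] using this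
  obtain ⟨m, hm, hassoc⟩ := (dvd_prime_pow hprime _).mp ⟨G', hGG.symm⟩
  obtain ⟨u, hu⟩ := hassoc
  have hG0 : G.eval 0 = 1 := by
    rw [hG, eval_det_add_X_smul, det_one, eval_one]
  -- u is a constant unit
  obtain ⟨c, hc, hcu⟩ := Polynomial.isUnit_iff.mp u.isUnit
  have hc1 : c = 1 := by
    have := congrArg (Polynomial.eval 0) hu
    rw [eval_mul, hG0, one_mul, ← hcu, eval_C, eval_pow, eval_add, eval_one, eval_X, add_zero,
      one_pow] at this
    exact this
  have hGm : G = (1 + X) ^ m := by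
    rw [← hu, ← hcu, hc1, C_1, mul_one]
  refine ⟨m, ?_, ?_⟩
  · have h1 := coeff_det_one_add_X_smul_one E
    rw [← hG, hGm, coeff_one_add_X_pow, Nat.choose_one_right] at h1
    exact h1
  · intro u
    have h2 := congrArg (Polynomial.eval (u - 1)) hGm
    rw [eval_pow, eval_add, eval_one, eval_X, add_sub_cancel] at h2
    rw [← h2, hG, ← Polynomial.coe_evalRingHom, RingHom.map_det]
    congr 1
    ext i j
    simp only [RingHom.mapMatrix_apply, Matrix.map_apply, Matrix.add_apply, Matrix.one_apply,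
      Matrix.smul_apply, coe_evalRingHom, eval_add, smul_eq_mul]
    rw [eval_mul, eval_X, eval_C]
    congr 1
    split_ifs <;> simp

/-- `twistMat e r E w = ∑ l < e, w ^ r l • E l`. -/
noncomputable def twistMat (e : ℕ) (r : ℕ → ℕ) (E : ℕ → Matrix n n K) (w : K) : Matrix n n K :=
  ∑ l ∈ range e, w ^ r l • E l

theorem det_one_add_sum_orth (E : ℕ → Matrix n n K) (c : ℕ → K) (e : ℕ)
    (horth : ∀ l < e, ∀ l' < e, l ≠ l' → E l * E l' = 0) :
    ∀ k ≤ e, det (1 + ∑ l ∈ range k, c l • E l) = ∏ l ∈ range k, det (1 + c l • E l) := by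
  intro k
  induction k with
  | zero => intro _; simp
  | succ k ih =>
    intro hk
    have hk' : k ≤ e := Nat.le_of_succ_le hk
    rw [Finset.prod_range_succ, ← ih hk', ← det_mul]
    congr 1
    rw [Finset.sum_range_succ, Matrix.add_mul, Matrix.one_mul, Matrix.mul_add, Matrix.mul_one,
      Finset.sum_mul]
    have : ∑ l ∈ range k, c l • E l * c k • E k = 0 := by
      refine Finset.sum_eq_zero fun l hl => ?_
      have hlk : l < k := Finset.mem_range.mp hl
      rw [Matrix.smul_mul, Matrix.mul_smul, horth l (by omega) k (by omega) (by omega), smul_zero,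
        smul_zero]
    rw [this, add_zero, add_assoc, add_comm (c k • E k)]

theorem det_twistMat (E : ℕ → Matrix n n K) (e : ℕ)
    (hidem : ∀ l < e, E l * E l = E l)
    (horth : ∀ l < e, ∀ l' < e, l ≠ l' → E l * E l' = 0)
    (hsum : ∑ l ∈ range e, E l = 1) (r : ℕ → ℕ) :
    ∃ m : ℕ → ℕ, (∀ l < e, (m l : K) = trace (E l)) ∧
      ∀ w : K, det (twistMat e r E w) = w ^ (∑ l ∈ range e, r l * m l) := by
  classical
  have hex : ∀ l, ∃ m : ℕ, l < e → ((m : K) = trace (E l) ∧
      ∀ u : K, det (1 + (u - 1) • E l) = u ^ m) := by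
    intro l
    by_cases hl : l < e
    · obtain ⟨m, hm1, hm2⟩ := det_one_add_smul_idem (E l) (hidem l hl)
      exact ⟨m, fun _ => ⟨hm1, hm2⟩⟩
    · exact ⟨0, fun h => absurd h hl⟩
  choose m hm using hex
  refine ⟨m, fun l hl => (hm l hl).1, fun w => ?_⟩
  have h1 : twistMat e r E w = 1 + ∑ l ∈ range e, (w ^ r l - 1) • E l := by
    unfold twistMat
    simp only [sub_smul, one_smul, Finset.sum_sub_distrib, hsum]
    abel
  rw [h1, det_one_add_sum_orth E _ e horth e le_rfl, ← Finset.prod_pow_eq_pow_sum]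
  refine Finset.prod_congr rfl fun l hl => ?_
  rw [(hm l (Finset.mem_range.mp hl)).2, ← pow_mul]

end Fermat.Agent.S20_helper90
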